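import Fermat.Agent.S13.TwoAdic.XCoreH.Basic
import Fermat.Agent.S05.Core.G1

/-!
# XCoreH: the kernel of reduction `G1 = {0} ∪ {P | 1 < v x(P)}` of an `XModel` is a subgroup
(FROZEN statements; one worker; replace each `sorry`; helper lemmas in a sub-namespace `G1`.)

`XModel` (see `XDefs.lean`): `xc`, `xc_neg`, `eq_or_eq_neg`, `add_sub` (sum and product of
`x(P ± Q)` for `x₁ ≠ x₂`), `two` (`D := 4x³ + b₂x² + 4a₄x`; `D = 0 → P + P = 0`;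
`D ≠ 0 → x(2P) = (x² - a₄)² / D`).  Hypotheses here: only `v b₂ ≤ 1`, `v a₄ ≤ 1` (and `v 2 ≤ 1`,
`v 4 ≤ 1` from `Basic.lean`).  Template: `Fermat/Agent/S05/Core/G1.lean`
(`G1.one_lt_of_sum_prod` is a pure field lemma and can be used as it is).

* `G1_neg`: `xc (-P) = xc P`.
* `G1_add`, both nonzero, `x₁ ≠ x₂`, `1 < v x₁`, `1 < v x₂`: `v (x₁x₂ - a₄) = v x₁ * v x₂`,
  `v (x₁ - x₂) ≤ max (v x₁) (v x₂)`, so `v Π ≥ min (v x₁) (v x₂) ^ 2 > 1`; numerator of `S`: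
  `v T1 ≤ (v x₁ * v x₂) * max (v x₁) (v x₂)`, `v T2 ≤ v x₁ * v x₂`, both `< (v x₁ * v x₂)²`, so
  `v S < v Π`; then `one_lt_of_sum_prod` gives `1 < v r₁` (and `1 < v r₂`).
* `x₁ = x₂`: `Q = P` or `Q = -P` (`eq_or_eq_neg`).  `Q = -P`: `P + Q = 0`.  `Q = P`: if `D = 0`
  then `P + P = 0`; otherwise `v ((x² - a₄)²) = (v x)⁴` and `v D ≤ (v x)³` (each of the three terms
  is `≤ (v x)³` because `1 < v x`), so `v x(2P) ≥ v x > 1`.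
* `G1_sub` from `G1_add` and `G1_neg`.
-/

set_option autoImplicit false

namespace Fermat.Agent.S13.TwoAdic.XCoreH

namespace G1

open Fermat.Agent.S05.G1 (one_lt_of_sum_prod pos_of_one_lt max_lt_mul one_le_mul)

variable {K : Type*} [Field K] {Γ₀ : Type*} [LinearOrderedCommGroupWithZero Γ₀]
  (v : Valuation K Γ₀)

theorem v_mul_sub {x₁ x₂ a₄ : K} (ha₄ : v a₄ ≤ 1) (h1 : 1 < v x₁) (h2 : 1 < v x₂) :
    v (x₁ * x₂ - a₄) = v x₁ * v x₂ := by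
  have h : v a₄ < v (x₁ * x₂) := by
    rw [map_mul]
    exact lt_of_le_of_lt ha₄ (one_le_mul h1 h2)
  rw [Valuation.map_sub_eq_of_lt_left v h, map_mul]

theorem v_num_le {x₁ x₂ b₂ a₄ : K} (hb₂ : v b₂ ≤ 1) (ha₄ : v a₄ ≤ 1) (h1 : 1 < v x₁)
    (h2 : 1 < v x₂) :
    v (2 * (x₁ * x₂ + a₄) * (x₁ + x₂) + b₂ * x₁ * x₂)
      ≤ max (v x₁) (v x₂) * (v x₁ * v x₂) := by
  apply Valuation.map_add_le
  · refine (val_T1_le v a₄ x₁ x₂).trans ?_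
    rw [mul_comm]
    apply mul_le_mul' (v.map_add x₁ x₂)
    apply Valuation.map_add_le
    · rw [map_mul]
    · exact ha₄.trans (one_le_mul h1 h2).le
  · rw [map_mul, map_mul, mul_assoc]
    apply mul_le_mul' _ le_rfl
    exact hb₂.trans (le_max_of_le_left h1.le)

/-- Both roots of the "sum/product" system for `x(P ± Q)` are non-integral. -/
theorem one_lt_add_sub {x₁ x₂ b₂ a₄ r₁ r₂ : K} (hb₂ : v b₂ ≤ 1) (ha₄ : v a₄ ≤ 1)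
    (h1 : 1 < v x₁) (h2 : 1 < v x₂) (hne : x₁ ≠ x₂)
    (hS : r₁ + r₂ = (2 * (x₁ * x₂ + a₄) * (x₁ + x₂) + b₂ * x₁ * x₂) / (x₁ - x₂) ^ 2)
    (hPr : r₁ * r₂ = (x₁ * x₂ - a₄) ^ 2 / (x₁ - x₂) ^ 2) : 1 < v r₁ ∧ 1 < v r₂ := by
  have hd0 : v (x₁ - x₂) ≠ 0 := (Valuation.ne_zero_iff v).mpr (sub_ne_zero.mpr hne)
  have hdpos : 0 < v (x₁ - x₂) ^ 2 := pow_pos (zero_lt_iff.mpr hd0) 2
  have hd : v (x₁ - x₂) ≤ max (v x₁) (v x₂) := Valuation.map_sub v x₁ x₂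
  have hmax : max (v x₁) (v x₂) < v x₁ * v x₂ := max_lt_mul h1 h2
  have hpos : 0 < v x₁ * v x₂ := pos_of_one_lt (one_le_mul h1 h2)
  have hSPr : v ((2 * (x₁ * x₂ + a₄) * (x₁ + x₂) + b₂ * x₁ * x₂) / (x₁ - x₂) ^ 2)
      < v ((x₁ * x₂ - a₄) ^ 2 / (x₁ - x₂) ^ 2) := by
    rw [map_div₀, map_div₀, map_pow, map_pow, v_mul_sub v ha₄ h1 h2]
    apply div_lt_div_of_pos_right _ hdpos
    calc v (2 * (x₁ * x₂ + a₄) * (x₁ + x₂) + b₂ * x₁ * x₂)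
        ≤ max (v x₁) (v x₂) * (v x₁ * v x₂) := v_num_le v hb₂ ha₄ h1 h2
      _ < (v x₁ * v x₂) * (v x₁ * v x₂) := mul_lt_mul_of_pos_right hmax hpos
      _ = (v x₁ * v x₂) ^ 2 := (pow_two _).symm
  have hPr1 : 1 < v ((x₁ * x₂ - a₄) ^ 2 / (x₁ - x₂) ^ 2) := by
    rw [map_div₀, map_pow, map_pow, v_mul_sub v ha₄ h1 h2, one_lt_div₀ hdpos]
    exact pow_lt_pow_left₀ (lt_of_le_of_lt hd hmax) zero_le two_ne_zero
  exact ⟨one_lt_of_sum_prod v hS hPr hSPr hPr1,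
    one_lt_of_sum_prod v ((add_comm r₂ r₁).trans hS) ((mul_comm r₂ r₁).trans hPr) hSPr hPr1⟩

/-- `x(2P)` is non-integral for `P` in the kernel of reduction. -/
theorem one_lt_v_dbl {x b₂ a₄ : K} (hb₂ : v b₂ ≤ 1) (ha₄ : v a₄ ≤ 1) (h1 : 1 < v x)
    (hD : 4 * x ^ 3 + b₂ * x ^ 2 + 4 * a₄ * x ≠ 0) :
    1 < v ((x ^ 2 - a₄) ^ 2 / (4 * x ^ 3 + b₂ * x ^ 2 + 4 * a₄ * x)) := by
  have hx0 : 0 < v x := pos_of_one_lt h1
  have hnum : v (x ^ 2 - a₄) = v x * v x := by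
    rw [pow_two, v_mul_sub v ha₄ h1 h1]
  have hDpos : 0 < v (4 * x ^ 3 + b₂ * x ^ 2 + 4 * a₄ * x) := v.pos_iff.mpr hD
  have h12 : v x ≤ v x ^ 2 := by
    calc v x = v x * 1 := (mul_one _).symm
      _ ≤ v x * v x := mul_le_mul' le_rfl h1.le
      _ = v x ^ 2 := (pow_two _).symm
  have h23 : v x ^ 2 ≤ v x ^ 3 := by
    calc v x ^ 2 = v x ^ 2 * 1 := (mul_one _).symm
      _ ≤ v x ^ 2 * v x := mul_le_mul' le_rfl h1.le
      _ = v x ^ 3 := (pow_succ _ 2).symm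
  have h34 : v x ^ 3 < v x ^ 4 := by
    calc v x ^ 3 = v x ^ 3 * 1 := (mul_one _).symm
      _ < v x ^ 3 * v x := mul_lt_mul_of_pos_left h1 (pow_pos hx0 3)
      _ = v x ^ 4 := (pow_succ _ 3).symm
  have hDle : v (4 * x ^ 3 + b₂ * x ^ 2 + 4 * a₄ * x) ≤ v x ^ 3 := by
    apply Valuation.map_add_le
    · apply Valuation.map_add_le
      · rw [map_mul, map_pow]
        exact mul_le_of_le_one_left' (val_four_le_one v)
      · rw [map_mul, map_pow]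
        exact (mul_le_of_le_one_left' hb₂).trans h23
    · rw [map_mul, map_mul]
      have h4a : v 4 * v a₄ ≤ 1 := by
        calc v 4 * v a₄ ≤ 1 * 1 := mul_le_mul' (val_four_le_one v) ha₄
          _ = 1 := one_mul 1
      exact (mul_le_of_le_one_left' h4a).trans (h12.trans h23)
  rw [map_div₀, map_pow, hnum, one_lt_div₀ hDpos]
  calc v (4 * x ^ 3 + b₂ * x ^ 2 + 4 * a₄ * x) ≤ v x ^ 3 := hDle
    _ < v x ^ 4 := h34
    _ = (v x * v x) ^ 2 := by rw [← pow_two, ← pow_mul]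

end G1

variable {K : Type*} [Field K] {Γ₀ : Type*} [LinearOrderedCommGroupWithZero Γ₀]
variable {b₂ a₄ : K} {G : Type*} [AddCommGroup G] (M : XModel K b₂ a₄ G) (v : Valuation K Γ₀)

theorem G1_neg {P : G} (hP : P ∈ M.G1 v) : -P ∈ M.G1 v := by
  rcases hP with h0 | ⟨x, h, hx⟩
  · rw [h0, neg_zero]
    exact M.zero_mem_G1 v
  · exact M.mem_G1_of_xc v ((M.xc_neg P).trans h) hx

theorem G1_add (hb₂ : v b₂ ≤ 1) (ha₄ : v a₄ ≤ 1) {P Q : G} (hP : P ∈ M.G1 v)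
    (hQ : Q ∈ M.G1 v) : P + Q ∈ M.G1 v := by
  rcases hP with h0 | ⟨x₁, hc₁, hx₁⟩
  · rw [h0, zero_add]
    exact hQ
  rcases hQ with h0 | ⟨x₂, hc₂, hx₂⟩
  · rw [h0, add_zero]
    exact M.mem_G1_of_xc v hc₁ hx₁
  by_cases hne : x₁ = x₂
  · subst hne
    rcases M.eq_or_eq_neg hc₁ hc₂ with hQP | hQP
    · rw [hQP]
      by_cases hD : 4 * x₁ ^ 3 + b₂ * x₁ ^ 2 + 4 * a₄ * x₁ = 0
      · rw [(M.two hc₁).1 hD]
        exact M.zero_mem_G1 v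
      · exact M.mem_G1_of_xc v ((M.two hc₁).2 hD) (G1.one_lt_v_dbl v hb₂ ha₄ hx₁ hD)
    · rw [hQP, add_neg_cancel]
      exact M.zero_mem_G1 v
  · obtain ⟨r₁, r₂, hp, hm, hS, hPr⟩ := M.add_sub hc₁ hc₂ hne
    exact M.mem_G1_of_xc v hp (G1.one_lt_add_sub v hb₂ ha₄ hx₁ hx₂ hne hS hPr).1

theorem G1_sub (hb₂ : v b₂ ≤ 1) (ha₄ : v a₄ ≤ 1) {P Q : G} (hP : P ∈ M.G1 v)
    (hQ : Q ∈ M.G1 v) : P - Q ∈ M.G1 v := by
  rw [sub_eq_add_neg]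
  exact G1_add M v hb₂ ha₄ hP (G1_neg M v hQ)

end Fermat.Agent.S13.TwoAdic.XCoreH
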