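import Fermat.Agent.S13.TwoAdic.XCoreH.Basic
import Fermat.Agent.S13.TwoAdic.XCoreH.G1

/-!
# XCoreH: the kernel of reduction of an `XModel` has no `n`-torsion for `n` a unit
(FROZEN statement; one worker; replace the `sorry`; helper lemmas in a sub-namespace `NoTorsion`.)

Template: `Fermat/Agent/S05/Core/NoTorsion.lean` (same proof; here `v 2 ≤ 1` only, which is enough).
Use `G1_add`, `G1_neg`, `G1_sub` of `XCoreH/G1.lean` (possibly still sorried there: cite them by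
their statements).

`ξ(R) := 1 / x(R)` for `R ≠ 0`, `ξ(0) := 0`; `v ξ(R) < 1` on `G1`.  For ALL `P, Q ∈ G1`:
`ξ(P+Q) + ξ(P-Q) = F(ξ_P, ξ_Q)`,
`F(ξ₁, ξ₂) := (2 (1 + a₄ ξ₁ ξ₂) (ξ₁ + ξ₂) + b₂ ξ₁ ξ₂) / (1 - a₄ ξ₁ ξ₂)²`
(chord case from `M.add_sub`: `1/r₁ + 1/r₂ = (r₁ + r₂)/(r₁ r₂)`; here `x₁x₂ - a₄ ≠ 0` because
`v (x₁x₂) > 1 ≥ v a₄`; tangent case `Q = P` from `M.two`: if `D = 4x³ + b₂x² + 4a₄x = 0` then
`P + P = 0` and `F(ξ, ξ) = (4ξ + b₂ξ² + 4a₄ξ³)/(1 - a₄ξ²)² = D / x⁴ / (…)² = 0`, otherwise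
`1/x(2P) = D/(x² - a₄)² = F(ξ, ξ)`; case `Q = -P` likewise with `P - Q = P + P`; cases `P = 0`,
`Q = 0`: `F(0, ξ) = 2ξ`).  Error term:
`F(ξ₁, ξ₂) - 2ξ₁ - 2ξ₂ = ξ₁ ξ₂ (2 a₄ (ξ₁ + ξ₂) (3 - a₄ ξ₁ ξ₂) + b₂) / (1 - a₄ ξ₁ ξ₂)²`,
of valuation `≤ v ξ₁ * v ξ₂` when `v b₂ ≤ 1`, `v a₄ ≤ 1`, `v ξ₁ < 1`, `v ξ₂ < 1`.
Induction (two-step, as in S05 `NoTorsion.val_xi_nsmul`): `v (ξ(m • R) - m² ξ(R)) < v ξ(R)` for all
`m` (recurrence `ξ_{m+1} = F(ξ_m, ξ) - ξ_{m-1}`; the term `2 * (ξ_m - m² ξ)` is handled with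
`v 2 ≤ 1`).  If `n • R = 0`, `R ≠ 0`: `v (n² ξ) < v ξ`, contradicting `v n = 1`.
-/

set_option autoImplicit false

namespace Fermat.Agent.S13.TwoAdic.XCoreH

namespace NoTorsion

variable {K : Type*} [Field K] {Γ₀ : Type*} [LinearOrderedCommGroupWithZero Γ₀]
variable {b₂ a₄ : K} {G : Type*} [AddCommGroup G] (M : XModel K b₂ a₄ G) (v : Valuation K Γ₀)

/-- The parameter `ξ = 1 / x` at infinity (`0` at the point at infinity). -/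
noncomputable def xi (P : G) : K :=
  match M.xc P with
  | none => 0
  | some x => x⁻¹

/-- The rational function expressing `ξ(P+Q) + ξ(P-Q)` through `ξ(P)` and `ξ(Q)`. -/
noncomputable def F (b₂ a₄ ξ₁ ξ₂ : K) : K :=
  (2 * (1 + a₄ * ξ₁ * ξ₂) * (ξ₁ + ξ₂) + b₂ * ξ₁ * ξ₂) / (1 - a₄ * ξ₁ * ξ₂) ^ 2

theorem xi_zero : xi M 0 = 0 := by
  unfold xi
  rw [M.xc_zero]

theorem xi_of_xc {P : G} {x : K} (h : M.xc P = some x) : xi M P = x⁻¹ := by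
  unfold xi
  rw [h]

theorem xi_neg (P : G) : xi M (-P) = xi M P := by
  unfold xi
  rw [M.xc_neg P]

theorem val_xi_lt_one {P : G} (hP : P ∈ M.G1 v) : v (xi M P) < 1 := by
  by_cases h0 : P = 0
  · rw [h0, xi_zero, map_zero]
    exact zero_lt_one
  · obtain ⟨x, h⟩ := M.exists_xc_of_ne_zero h0
    have hX := M.one_lt_of_mem_G1 v hP h
    rw [xi_of_xc M h, map_inv₀]
    exact inv_lt_one_of_one_lt₀ hX

theorem val_xi_pos {P : G} (hP : P ∈ M.G1 v) (h0 : P ≠ 0) : 0 < v (xi M P) := by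
  obtain ⟨x, h⟩ := M.exists_xc_of_ne_zero h0
  have hX := M.one_lt_of_mem_G1 v hP h
  rw [xi_of_xc M h, map_inv₀]
  exact inv_pos.mpr (zero_lt_one.trans hX)

/-! ### Field identities -/

theorem F_zero_left (ξ : K) : F b₂ a₄ 0 ξ = 2 * ξ := by
  unfold F
  simp

theorem F_zero_right (ξ : K) : F b₂ a₄ ξ 0 = 2 * ξ := by
  unfold F
  simp

/-- The denominator of `F` at `(x₁⁻¹, x₂⁻¹)`. -/
theorem denom_ne_zero {x₁ x₂ : K} (hx1 : x₁ ≠ 0) (hx2 : x₂ ≠ 0) (hab : x₁ * x₂ - a₄ ≠ 0) :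
    1 - a₄ * x₁⁻¹ * x₂⁻¹ ≠ 0 := by
  have h : 1 - a₄ * x₁⁻¹ * x₂⁻¹ = (x₁ * x₂ - a₄) / (x₁ * x₂) := by
    field_simp
  rw [h]
  exact div_ne_zero hab (mul_ne_zero hx1 hx2)

/-- Chord case: `1/x(P+Q) + 1/x(P-Q)` in terms of `1/x(P)`, `1/x(Q)`. -/
theorem chord_identity {x₁ x₂ r₁ r₂ : K} (hx1 : x₁ ≠ 0) (hx2 : x₂ ≠ 0) (hne : x₁ ≠ x₂)
    (hab : x₁ * x₂ - a₄ ≠ 0)
    (hsum : r₁ + r₂ = (2 * (x₁ * x₂ + a₄) * (x₁ + x₂) + b₂ * x₁ * x₂) / (x₁ - x₂) ^ 2)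
    (hprod : r₁ * r₂ = (x₁ * x₂ - a₄) ^ 2 / (x₁ - x₂) ^ 2) :
    r₁⁻¹ + r₂⁻¹ = F b₂ a₄ x₁⁻¹ x₂⁻¹ := by
  have hd : x₁ - x₂ ≠ 0 := sub_ne_zero.mpr hne
  have hpm : r₁ * r₂ ≠ 0 := by
    rw [hprod]
    exact div_ne_zero (pow_ne_zero 2 hab) (pow_ne_zero 2 hd)
  have hr1 : r₁ ≠ 0 := left_ne_zero_of_mul hpm
  have hr2 : r₂ ≠ 0 := right_ne_zero_of_mul hpm
  have h1 : r₁⁻¹ + r₂⁻¹ = (r₁ + r₂) / (r₁ * r₂) := by
    field_simp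
    ring
  have hD : 1 - a₄ * x₁⁻¹ * x₂⁻¹ ≠ 0 := denom_ne_zero hx1 hx2 hab
  have hF : F b₂ a₄ x₁⁻¹ x₂⁻¹ =
      (2 * (x₁ * x₂ + a₄) * (x₁ + x₂) + b₂ * x₁ * x₂) / (x₁ * x₂ - a₄) ^ 2 := by
    unfold F
    rw [div_eq_div_iff (pow_ne_zero 2 hD) (pow_ne_zero 2 hab)]
    field_simp
    ring
  rw [h1, hsum, hprod, hF]
  field_simp

/-- Tangent case: `F(1/x, 1/x) = D / (x² - a₄)²`. -/
theorem tangent_identity {x : K} (hx : x ≠ 0) (hab : x * x - a₄ ≠ 0) :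
    F b₂ a₄ x⁻¹ x⁻¹ = (4 * x ^ 3 + b₂ * x ^ 2 + 4 * a₄ * x) / (x ^ 2 - a₄) ^ 2 := by
  have hab' : x ^ 2 - a₄ ≠ 0 := by rwa [pow_two]
  have hD : 1 - a₄ * x⁻¹ * x⁻¹ ≠ 0 := denom_ne_zero hx hx hab
  unfold F
  rw [div_eq_div_iff (pow_ne_zero 2 hD) (pow_ne_zero 2 hab')]
  field_simp
  ring

/-- The error term of the approximate parallelogram law. -/
theorem F_sub_eq {ξ₁ ξ₂ : K} (hD : 1 - a₄ * ξ₁ * ξ₂ ≠ 0) :
    F b₂ a₄ ξ₁ ξ₂ - 2 * ξ₁ - 2 * ξ₂ =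
      ξ₁ * ξ₂ * (2 * a₄ * (ξ₁ + ξ₂) * (3 - a₄ * ξ₁ * ξ₂) + b₂) / (1 - a₄ * ξ₁ * ξ₂) ^ 2 := by
  have hD2 : (1 - a₄ * ξ₁ * ξ₂) ^ 2 ≠ 0 := pow_ne_zero 2 hD
  unfold F
  rw [eq_div_iff hD2, sub_mul, sub_mul, div_mul_cancel₀ _ hD2]
  ring

/-! ### Valuation estimates -/

theorem F_bound (hb₂ : v b₂ ≤ 1) (ha₄ : v a₄ ≤ 1) {ξ₁ ξ₂ : K} (h1 : v ξ₁ < 1) (h2 : v ξ₂ < 1) :
    v (F b₂ a₄ ξ₁ ξ₂ - 2 * ξ₁ - 2 * ξ₂) ≤ v ξ₁ * v ξ₂ := by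
  have ht : v (a₄ * ξ₁ * ξ₂) < 1 := by
    have h12 : v (ξ₁ * ξ₂) < 1 := by
      rw [map_mul]
      exact lt_of_le_of_lt (mul_le_of_le_one_right' h2.le) h1
    rw [mul_assoc, map_mul]
    exact lt_of_le_of_lt (mul_le_of_le_one_left' ha₄) h12
  have hD : v (1 - a₄ * ξ₁ * ξ₂) = 1 := Valuation.map_one_sub_of_lt v ht
  have hD0 : 1 - a₄ * ξ₁ * ξ₂ ≠ 0 := by
    intro h
    rw [h, map_zero] at hD
    exact zero_ne_one hD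
  have hξ1 : ξ₁ ∈ v.integer := h1.le
  have hξ2 : ξ₂ ∈ v.integer := h2.le
  have ha' : a₄ ∈ v.integer := ha₄
  have hb' : b₂ ∈ v.integer := hb₂
  have hB : 2 * a₄ * (ξ₁ + ξ₂) * (3 - a₄ * ξ₁ * ξ₂) + b₂ ∈ v.integer :=
    add_mem
      (mul_mem (mul_mem (mul_mem (ofNat_mem _ 2) ha') (add_mem hξ1 hξ2))
        (sub_mem (ofNat_mem _ 3) (mul_mem (mul_mem ha' hξ1) hξ2)))
      hb'
  have hB' : v (2 * a₄ * (ξ₁ + ξ₂) * (3 - a₄ * ξ₁ * ξ₂) + b₂) ≤ 1 := hB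
  rw [F_sub_eq hD0, map_div₀, map_pow, hD, one_pow, div_one, map_mul, map_mul]
  exact mul_le_of_le_one_right' hB'

theorem x_ne_zero {x : K} (hx : 1 < v x) : x ≠ 0 := by
  intro h
  rw [h, map_zero] at hx
  exact lt_asymm hx zero_lt_one

theorem mul_sub_ne_zero (ha₄ : v a₄ ≤ 1) {x₁ x₂ : K} (hx1 : 1 < v x₁)
    (hx2 : 1 < v x₂) : x₁ * x₂ - a₄ ≠ 0 := by
  intro h
  have h1 : v (x₁ * x₂) = v a₄ := by rw [sub_eq_zero.mp h]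
  rw [map_mul] at h1
  have h3 : 1 < v x₁ * v x₂ := one_lt_mul'' hx1 hx2
  rw [h1] at h3
  exact not_lt_of_ge ha₄ h3

/-! ### The approximate parallelogram law on `G1` -/

/-- The doubling case: `ξ(P + P) = F(ξ_P, ξ_P)`. -/
theorem xi_two (ha₄ : v a₄ ≤ 1) {P : G} {x : K} (h : M.xc P = some x) (hx : 1 < v x) :
    xi M (P + P) = F b₂ a₄ x⁻¹ x⁻¹ := by
  have hx0 : x ≠ 0 := x_ne_zero v hx
  have hT := tangent_identity (b₂ := b₂) hx0 (mul_sub_ne_zero v ha₄ hx hx)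
  by_cases hD : 4 * x ^ 3 + b₂ * x ^ 2 + 4 * a₄ * x = 0
  · rw [(M.two h).1 hD, xi_zero, hT, hD, zero_div]
  · rw [xi_of_xc M ((M.two h).2 hD), inv_div, hT]

theorem xi_add_sub (ha₄ : v a₄ ≤ 1) {P Q : G} (hP : P ∈ M.G1 v)
    (hQ : Q ∈ M.G1 v) : xi M (P + Q) + xi M (P - Q) = F b₂ a₄ (xi M P) (xi M Q) := by
  by_cases hP0 : P = 0
  · rw [hP0, zero_add, zero_sub, xi_neg, xi_zero, F_zero_left]
    ring
  by_cases hQ0 : Q = 0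
  · rw [hQ0, add_zero, sub_zero, xi_zero, F_zero_right]
    ring
  obtain ⟨x₁, h1⟩ := M.exists_xc_of_ne_zero hP0
  obtain ⟨x₂, hc2⟩ := M.exists_xc_of_ne_zero hQ0
  have hx1 := M.one_lt_of_mem_G1 v hP h1
  have hx2 := M.one_lt_of_mem_G1 v hQ hc2
  have hx10 : x₁ ≠ 0 := x_ne_zero v hx1
  have hx20 : x₂ ≠ 0 := x_ne_zero v hx2
  rw [xi_of_xc M h1, xi_of_xc M hc2]
  by_cases hne : x₁ = x₂
  · subst hne
    have hT := xi_two M v ha₄ h1 hx1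
    rcases M.eq_or_eq_neg h1 hc2 with hQP | hQP
    · rw [hQP, sub_self, xi_zero, add_zero]
      exact hT
    · rw [hQP, add_neg_cancel, xi_zero, zero_add, sub_neg_eq_add]
      exact hT
  · obtain ⟨r₁, r₂, hp, hm, hsum, hprod⟩ := M.add_sub h1 hc2 hne
    rw [xi_of_xc M hp, xi_of_xc M hm]
    exact chord_identity hx10 hx20 hne (mul_sub_ne_zero v ha₄ hx1 hx2) hsum hprod

theorem nsmul_mem_G1 (hb₂ : v b₂ ≤ 1) (ha₄ : v a₄ ≤ 1) {R : G} (hR : R ∈ M.G1 v)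
    (m : ℕ) : m • R ∈ M.G1 v := by
  induction m with
  | zero =>
    rw [zero_smul]
    exact M.zero_mem_G1 v
  | succ m ih =>
    rw [succ_nsmul]
    exact G1_add M v hb₂ ha₄ ih hR

/-- `ξ(m • R) ≡ m² ξ(R)` modulo `ξ(R) 𝔪`. -/
theorem val_xi_nsmul (hb₂ : v b₂ ≤ 1) (ha₄ : v a₄ ≤ 1) {R : G} (hR : R ∈ M.G1 v)
    (hR0 : R ≠ 0) (m : ℕ) :
    v (xi M (m • R) - (m : K) ^ 2 * xi M R) < v (xi M R) ∧
      v (xi M ((m + 1) • R) - ((m + 1 : ℕ) : K) ^ 2 * xi M R) < v (xi M R) := by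
  have hpos : 0 < v (xi M R) := val_xi_pos M v hR hR0
  induction m with
  | zero =>
    constructor
    · rw [zero_smul, xi_zero, Nat.cast_zero]
      simpa using hpos
    · rw [zero_add, one_smul, Nat.cast_one]
      simpa using hpos
  | succ m ih =>
    refine ⟨ih.2, ?_⟩
    have hP : (m + 1) • R ∈ M.G1 v := nsmul_mem_G1 M v hb₂ ha₄ hR (m + 1)
    have hadd : (m + 1) • R + R = (m + 1 + 1) • R := (succ_nsmul R (m + 1)).symm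
    have hsub : (m + 1) • R - R = m • R := by rw [succ_nsmul, add_sub_cancel_right]
    have hF := xi_add_sub M v ha₄ hP hR
    rw [hadd, hsub] at hF
    have hE := F_bound v hb₂ ha₄ (val_xi_lt_one M v hP) (val_xi_lt_one M v hR)
    have hE' : v (F b₂ a₄ (xi M ((m + 1) • R)) (xi M R) - 2 * xi M ((m + 1) • R) - 2 * xi M R)
        < v (xi M R) :=
      lt_of_le_of_lt hE (mul_lt_of_lt_one_left hpos (val_xi_lt_one M v hP))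
    have hid : xi M ((m + 1 + 1) • R) - ((m + 1 + 1 : ℕ) : K) ^ 2 * xi M R =
        (F b₂ a₄ (xi M ((m + 1) • R)) (xi M R) - 2 * xi M ((m + 1) • R) - 2 * xi M R)
          - (xi M (m • R) - (m : K) ^ 2 * xi M R)
          + 2 * (xi M ((m + 1) • R) - ((m + 1 : ℕ) : K) ^ 2 * xi M R) := by
      push_cast
      linear_combination hF
    rw [hid]
    refine Valuation.map_add_lt v (Valuation.map_sub_lt v hE' ih.1) ?_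
    rw [map_mul]
    exact lt_of_le_of_lt (mul_le_of_le_one_left' (val_two_le_one v)) ih.2

end NoTorsion

variable {K : Type*} [Field K] {Γ₀ : Type*} [LinearOrderedCommGroupWithZero Γ₀]
variable {b₂ a₄ : K} {G : Type*} [AddCommGroup G] (M : XModel K b₂ a₄ G) (v : Valuation K Γ₀)

theorem G1_torsion_free (hb₂ : v b₂ ≤ 1) (ha₄ : v a₄ ≤ 1) {R : G} (hR : R ∈ M.G1 v) {n : ℕ}
    (hn : v (n : K) = 1) (hnR : n • R = 0) : R = 0 := by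
  by_contra hR0
  have key := (NoTorsion.val_xi_nsmul M v hb₂ ha₄ hR hR0 n).1
  rw [hnR, NoTorsion.xi_zero, zero_sub, Valuation.map_neg, map_mul, map_pow, hn, one_pow,
    one_mul] at key
  exact lt_irrefl _ key

end Fermat.Agent.S13.TwoAdic.XCoreH
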