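import Fermat.Agent.S13.TwoAdic.XCoreH.Basic
import Fermat.Agent.S05.Core.Dbl

/-!
# XCoreH: field-level doubling rule without `v 2 = 1`
(FROZEN statement; one worker; replace the `sorry`; helper lemmas in a sub-namespace `Dbl`.)

`x(2P) = (x² - a₄)² / D`, `D = 4x³ + b₂x² + 4a₄x = x (4x² + b₂x + 4a₄)`, with `v b₂ = 1`,
`0 < ε := v a₄ < 1`, `v 4 ≤ 1` (`val_four_le_one`), `D ≠ 0`.
Claim: `clip ε (v x(2P)) = fold ε (s * s)`, `s = clip ε (v x)`.
Template: `Fermat/Agent/S05/Core/Dbl.lean` (`dbl_field`; its pure `Γ₀`-lemmas `Dbl.case1 … case5`,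
`Dbl.clip_*`, `Dbl.fold_*` can be used as they are — read their statements first).
ADDITIVE notation (`w = -log v`, `N = w(a₄) > 0`, `e = w(2) ≥ 0`, `i = w(x)`): the three terms of
`D / x` have `w = 2e + 2i`, `i`, `2e + N`.
* `i < 0`: `w(num) = 4i`, `w(D) ≥ 3i`, so `w(x(2P)) ≤ i < 0`: clip `0` = fold `(0 + 0)`.
* `i = 0`: `w(num) = 0`, `w(D) ≥ 0`: `w(x(2P)) ≤ 0`: clip `0`.
* `0 < i`, `2i < N`: `w(num) = 4i`, `b₂x²` dominates strictly (`w = 2i`): `w(x(2P)) = 2i`.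
* `2i = N`: `w(num) ≥ 2N`, `w(D) = N`: `w(x(2P)) ≥ N`: clip `N` = fold `N`.
* `N < 2i`, `i < N`: `w(num) = 2N`, `w(D) = 2i`: `w(x(2P)) = 2N - 2i` = fold `(2i)`.
* `i = N`: `w(num) = 2N`, `w(D) ≥ 2N` (the terms `b₂x²` and `4a₄x` may cancel when `e = 0`, but
  `D ≠ 0`): `w(x(2P)) ≤ 0`: clip `0` = fold `(2N)`.
* `i > N`: `w(num) = 2N`, `w(D) ≥ N + i > 2N`: `w(x(2P)) < 0`: clip `0`.
-/

set_option autoImplicit false

namespace Fermat.Agent.S13.TwoAdic.XCoreH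

open Fermat.Agent.S05 (fold qt clip URConcl)

variable {K : Type*} [Field K] {Γ₀ : Type*} [LinearOrderedCommGroupWithZero Γ₀]
variable {v : Valuation K Γ₀} {b₂ a₄ x₁ x₂ r₁ r₂ : K}

namespace Dbl

/-- The valuation of `x(2P)` in terms of the valuations of the factors. -/
theorem map_r2 (v : Valuation K Γ₀) (b₂ a₄ x : K) :
    v ((x ^ 2 - a₄) ^ 2 / (4 * x ^ 3 + b₂ * x ^ 2 + 4 * a₄ * x)) =
      v (x ^ 2 - a₄) ^ 2 / (v x * v (4 * x ^ 2 + b₂ * x + 4 * a₄)) := by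
  have h : 4 * x ^ 3 + b₂ * x ^ 2 + 4 * a₄ * x = x * (4 * x ^ 2 + b₂ * x + 4 * a₄) := by ring
  rw [h, map_div₀, map_pow, map_mul]

/-- `1 ≤ n ^ 2 / d` as soon as `0 < d ≤ n ^ 2`. -/
theorem clip_div_eq_one {ε n d : Γ₀} (hε : ε ≤ 1) (hd0 : 0 < d) (hd : d ≤ n ^ 2) :
    clip ε (n ^ 2 / d) = 1 := by
  apply Fermat.Agent.S05.Dbl.clip_of_one_le hε
  rw [le_div_iff₀ hd0, one_mul]
  exact hd

end Dbl

theorem dbl_field2 (v : Valuation K Γ₀) {b₂ a₄ x : K} (hb₂ : v b₂ = 1) (ha₄0 : a₄ ≠ 0)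
    (ha₄ : v a₄ < 1) (hden : 4 * x ^ 3 + b₂ * x ^ 2 + 4 * a₄ * x ≠ 0) :
    clip (v a₄) (v ((x ^ 2 - a₄) ^ 2 / (4 * x ^ 3 + b₂ * x ^ 2 + 4 * a₄ * x))) =
      fold (v a₄) (clip (v a₄) (v x) * clip (v a₄) (v x)) := by
  have hfac : 4 * x ^ 3 + b₂ * x ^ 2 + 4 * a₄ * x = x * (4 * x ^ 2 + b₂ * x + 4 * a₄) := by ring
  have hX0 : x ≠ 0 := by
    intro h
    apply hden
    rw [hfac, h, zero_mul]
  have hE0 : 4 * x ^ 2 + b₂ * x + 4 * a₄ ≠ 0 := by
    intro h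
    apply hden
    rw [hfac, h, mul_zero]
  have hε0 : 0 < v a₄ := zero_lt_iff.mpr ((Valuation.ne_zero_iff v).mpr ha₄0)
  have hx0 : 0 < v x := zero_lt_iff.mpr ((Valuation.ne_zero_iff v).mpr hX0)
  have ha0 : 0 < v (4 * x ^ 2 + b₂ * x + 4 * a₄) :=
    zero_lt_iff.mpr ((Valuation.ne_zero_iff v).mpr hE0)
  have hd0 : 0 < v x * v (4 * x ^ 2 + b₂ * x + 4 * a₄) := mul_pos hx0 ha0
  have hX2 : v (x ^ 2) = v x ^ 2 := map_pow v x 2
  have h4x : v (4 * x ^ 2) ≤ v x ^ 2 := by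
    rw [map_mul, map_pow]
    exact mul_le_of_le_one_left' (val_four_le_one v)
  have hbx : v (b₂ * x) = v x := by rw [map_mul, hb₂, one_mul]
  have h4a : v (4 * a₄) ≤ v a₄ := by
    rw [map_mul]
    exact mul_le_of_le_one_left' (val_four_le_one v)
  have hE_le : ∀ c : Γ₀, v x ^ 2 ≤ c → v x ≤ c → v a₄ ≤ c →
      v (4 * x ^ 2 + b₂ * x + 4 * a₄) ≤ c := fun c h1 h2 h3 =>
    Valuation.map_add_le v (Valuation.map_add_le v (h4x.trans h1) (hbx.le.trans h2))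
      (h4a.trans h3)
  rw [Dbl.map_r2 v b₂ a₄ x]
  rcases lt_trichotomy (v x) 1 with hx1 | hx1 | hx1
  · -- `v x < 1`
    have hX2lt : v x ^ 2 < v x := by
      rw [pow_two]
      exact Fermat.Agent.S05.Dbl.mul_self_lt hx0 hx1
    rcases lt_trichotomy (v x) (v a₄) with hxε | hxε | hxε
    · -- `v x < v a₄`
      have hn : v (x ^ 2 - a₄) = v a₄ :=
        Valuation.map_sub_eq_of_lt_right v (by rw [hX2]; exact hX2lt.trans hxε)
      have ha : v (4 * x ^ 2 + b₂ * x + 4 * a₄) ≤ v a₄ :=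
        hE_le _ (hX2lt.le.trans hxε.le) hxε.le le_rfl
      have hd : v x * v (4 * x ^ 2 + b₂ * x + 4 * a₄) ≤ v a₄ ^ 2 := by
        rw [pow_two (v a₄)]
        exact mul_le_mul' hxε.le ha
      rw [hn, Dbl.clip_div_eq_one ha₄.le hd0 hd,
        Fermat.Agent.S05.Dbl.clip_of_le ha₄.le hxε.le,
        Fermat.Agent.S05.Dbl.fold_mul_self hε0 ha₄]
    · -- `v x = v a₄`
      have hn : v (x ^ 2 - a₄) = v a₄ :=
        Valuation.map_sub_eq_of_lt_right v (by rw [hX2, ← hxε]; exact hX2lt)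
      have ha : v (4 * x ^ 2 + b₂ * x + 4 * a₄) ≤ v a₄ :=
        hE_le _ (hX2lt.le.trans hxε.le) hxε.le le_rfl
      have hd : v x * v (4 * x ^ 2 + b₂ * x + 4 * a₄) ≤ v a₄ ^ 2 := by
        rw [pow_two (v a₄)]
        exact mul_le_mul' hxε.le ha
      rw [hn, Dbl.clip_div_eq_one ha₄.le hd0 hd, hxε,
        Fermat.Agent.S05.Dbl.clip_of_le ha₄.le le_rfl,
        Fermat.Agent.S05.Dbl.fold_mul_self hε0 ha₄]
    · -- `v a₄ < v x < 1`: the middle term of the denominator dominates strictly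
      have h1 : v (4 * x ^ 2) < v (b₂ * x) := by
        rw [hbx]
        exact lt_of_le_of_lt h4x hX2lt
      have h2 : v (4 * x ^ 2 + b₂ * x) = v x := by
        rw [Valuation.map_add_eq_of_lt_right v h1, hbx]
      have h3 : v (4 * a₄) < v (4 * x ^ 2 + b₂ * x) := by
        rw [h2]
        exact lt_of_le_of_lt h4a hxε
      have ha : v (4 * x ^ 2 + b₂ * x + 4 * a₄) = v x := by
        rw [Valuation.map_add_eq_of_lt_left v h3, h2]
      rw [ha]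
      rcases lt_trichotomy (v x ^ 2) (v a₄) with h | h | h
      · have hn : v (x ^ 2 - a₄) = v a₄ :=
          Valuation.map_sub_eq_of_lt_right v (by rw [hX2]; exact h)
        rw [hn]
        have key := Fermat.Agent.S05.Dbl.case3b hxε hx1 h
        rw [mul_one] at key
        exact key
      · have hn : v (x ^ 2 - a₄) ≤ v a₄ :=
          Valuation.map_sub_le v (by rw [hX2, h]) le_rfl
        have key := Fermat.Agent.S05.Dbl.case3c hxε hx1 h hn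
        rw [mul_one] at key
        exact key
      · have hn : v (x ^ 2 - a₄) = v x ^ 2 := by
          rw [Valuation.map_sub_eq_of_lt_left v (by rw [hX2]; exact h), hX2]
        rw [hn]
        have key := Fermat.Agent.S05.Dbl.case3a hxε hx1 h
        rw [mul_one] at key
        exact key
  · -- `v x = 1`
    have hn : v (x ^ 2 - a₄) = 1 := by
      rw [Valuation.map_sub_eq_of_lt_left v (by rw [hX2, hx1, one_pow]; exact ha₄), hX2, hx1,
        one_pow]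
    have ha : v (4 * x ^ 2 + b₂ * x + 4 * a₄) ≤ 1 :=
      hE_le 1 (by rw [hx1, one_pow]) hx1.le ha₄.le
    have hd : v x * v (4 * x ^ 2 + b₂ * x + 4 * a₄) ≤ (1 : Γ₀) ^ 2 := by
      rw [one_pow, hx1, one_mul]
      exact ha
    rw [hn, Dbl.clip_div_eq_one ha₄.le hd0 hd, hx1,
      Fermat.Agent.S05.Dbl.clip_of_one_le ha₄.le le_rfl, mul_one,
      Fermat.Agent.S05.Dbl.fold_of_le ha₄.le]
  · -- `1 < v x`
    have hxle : v x ≤ v x ^ 2 := by
      calc v x = v x * 1 := (mul_one _).symm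
        _ ≤ v x * v x := mul_le_mul' le_rfl hx1.le
        _ = v x ^ 2 := (pow_two _).symm
    have h1 : 1 < v x ^ 2 := lt_of_lt_of_le hx1 hxle
    have hn : v (x ^ 2 - a₄) = v x ^ 2 := by
      rw [Valuation.map_sub_eq_of_lt_left v (by rw [hX2]; exact ha₄.trans h1), hX2]
    have ha : v (4 * x ^ 2 + b₂ * x + 4 * a₄) ≤ v x ^ 2 :=
      hE_le _ le_rfl hxle (ha₄.le.trans h1.le)
    have hd : v x * v (4 * x ^ 2 + b₂ * x + 4 * a₄) ≤ (v x ^ 2) ^ 2 := by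
      rw [pow_two (v x ^ 2)]
      exact mul_le_mul' hxle ha
    rw [hn, Dbl.clip_div_eq_one ha₄.le hd0 hd,
      Fermat.Agent.S05.Dbl.clip_of_one_le ha₄.le hx1.le, mul_one,
      Fermat.Agent.S05.Dbl.fold_of_le ha₄.le]

end Fermat.Agent.S13.TwoAdic.XCoreH
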