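import Fermat.Agent.S13.TwoAdic.XCoreH.Basic
import Fermat.Agent.S05.Core.URA

/-!
# XCoreH: field-level unordered rule, case family A (`v x₂ < v x₁`, `v a₄ < v x₁ * v x₂`)
(FROZEN statements; one worker; replace each `sorry`; helper lemmas in a sub-namespace `URA`.)

Setting (`URHyp2`, see `XDefs.lean`): `v b₂ = 1`, `a₄ ≠ 0`, `ε := v a₄ < 1`, `x₁ ≠ x₂`,
`r₁ + r₂ = S = (2 (x₁ x₂ + a₄) (x₁ + x₂) + b₂ x₁ x₂) / (x₁ - x₂)²`,
`r₁ r₂ = Π = (x₁ x₂ - a₄)² / (x₁ - x₂)²`.  NO hypothesis `v 2 = 1` (only `v 2 ≤ 1`: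
`val_two_le_one`).  Numerator of `S` = `T1 + T2`, `T1 = 2 (x₁ x₂ + a₄) (x₁ + x₂)` (only the upper
bound `v T1 ≤ v (x₁ x₂ + a₄) * v (x₁ + x₂)`, `val_T1_le`), `T2 = b₂ x₁ x₂` (`v T2 = v x₁ * v x₂`).
Use `Basic.lean`: `val_S`, `val_Pi`, `val_num_eq` (exact value when the `T1`-bound is strictly
smaller), `val_num_le` (upper bound), `eps_pos`; then `Fermat.Agent.S05.newton_two_roots`
(`Fermat/Agent/S05/Core/Newton.lean`) to get `v r₁`, `v r₂` from `v S`, `v Π`; then clip.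
ADDITIVE notation below: `w = -log v`, `N = w(a₄) > 0`, `e = w(2) ≥ 0`, `i = w(x₁)`, `j = w(x₂)`,
`clip` = clipping of `w` to `[0, N]`, `s = clip i`, `t = clip j`; the claim `URConcl` is
`{clip w(r₁), clip w(r₂)} = {|s - t|, s + t if s + t ≤ N else 2N - s - t}`.
TEMPLATE: the S05 file named below proves the same case for S05's `URHyp` (where `v 2 = 1`); its
PURE `Γ₀`-lemmas (about `clip`, `fold`, `qt`, and the `concl_*` lemmas) can be used AS THEY ARE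
(import the file, read-only; names `Fermat.Agent.S05.URA.clip_eq_self` etc.); only the valuation
computations of `S` and `Π` have to be redone with the bound for `T1`.
Template: `Fermat/Agent/S05/Core/URA.lean` (`ur_A1`, `URA.roots_A1`, `URA.concl_of_one_le`).

Family A (`i < j`, `i + j < N`): `w(x₁ - x₂) = w(x₁ + x₂) = i`, `w(x₁x₂ ∓ a₄) = i + j`, `w(Π) = 2j`,
`w(T1) ≥ e + 2i + j`, `w(T2) = i + j`.
* A1 (`i > 0`): `T2` dominates strictly, `w(S) = j - i`, `2 w(S) < w(Π)`: roots `j - i`, `j + i`.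
* A2 (`i = 0`) and A3 (`i < 0`): `w(num) ≥ 2i + j`, so `w(S) ≥ j`, `2 w(S) ≥ w(Π)`: both roots `j`;
  clipped: `s = 0`, both `t`.  (One common lemma for `1 ≤ v x₁`, as `URA.concl_of_one_le` in S05.)
-/

set_option autoImplicit false

namespace Fermat.Agent.S13.TwoAdic.XCoreH

open Fermat.Agent.S05 (fold qt clip URConcl)

variable {K : Type*} [Field K] {Γ₀ : Type*} [LinearOrderedCommGroupWithZero Γ₀]
variable {v : Valuation K Γ₀} {b₂ a₄ x₁ x₂ r₁ r₂ : K}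

namespace URA

/-! ### Valuations of the ingredients (family A: `v x₂ < v x₁`, `v a₄ < v x₁ * v x₂`) -/

theorem prod_pos (hA : v a₄ < v x₁ * v x₂) : 0 < v x₁ * v x₂ := lt_of_le_of_lt zero_le hA

theorem a_pos (hA : v a₄ < v x₁ * v x₂) : 0 < v x₁ :=
  zero_lt_iff.mpr (left_ne_zero_of_mul (prod_pos hA).ne')

theorem b_pos (hA : v a₄ < v x₁ * v x₂) : 0 < v x₂ :=
  zero_lt_iff.mpr (right_ne_zero_of_mul (prod_pos hA).ne')

theorem val_sub (hlt : v x₂ < v x₁) : v (x₁ - x₂) = v x₁ :=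
  Valuation.map_sub_eq_of_lt_left v hlt

theorem val_add (hlt : v x₂ < v x₁) : v (x₁ + x₂) = v x₁ :=
  Valuation.map_add_eq_of_lt_left v hlt

theorem val_prod_sub (hA : v a₄ < v x₁ * v x₂) : v (x₁ * x₂ - a₄) = v x₁ * v x₂ := by
  have h : v a₄ < v (x₁ * x₂) := by
    rw [map_mul]
    exact hA
  rw [Valuation.map_sub_eq_of_lt_left v h, map_mul]

theorem val_prod_add (hA : v a₄ < v x₁ * v x₂) : v (x₁ * x₂ + a₄) = v x₁ * v x₂ := by
  have h : v a₄ < v (x₁ * x₂) := by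
    rw [map_mul]
    exact hA
  rw [Valuation.map_add_eq_of_lt_left v h, map_mul]

/-- `v Π = (v x₂)²`. -/
theorem val_Pi_A (H : URHyp2 v b₂ a₄ x₁ x₂ r₁ r₂) (hlt : v x₂ < v x₁)
    (hA : v a₄ < v x₁ * v x₂) : v (r₁ * r₂) = v x₂ ^ 2 := by
  rw [val_Pi H, val_prod_sub hA, val_sub hlt, mul_pow, mul_comm,
    mul_div_assoc, div_self (pow_ne_zero 2 (a_pos hA).ne'), mul_one]

/-- The bound for the first term of the numerator of `S`. -/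
theorem val_bound (hlt : v x₂ < v x₁) (hA : v a₄ < v x₁ * v x₂) :
    v (x₁ * x₂ + a₄) * v (x₁ + x₂) = v x₁ * v x₂ * v x₁ := by
  rw [val_prod_add hA, val_add hlt]

/-! ### Case `v x₁ < 1` -/

/-- In case A1 the numerator of `S` has valuation `v x₁ * v x₂`. -/
theorem val_num_A1 (H : URHyp2 v b₂ a₄ x₁ x₂ r₁ r₂) (hlt : v x₂ < v x₁)
    (hA : v a₄ < v x₁ * v x₂) (h1 : v x₁ < 1) :
    v (2 * (x₁ * x₂ + a₄) * (x₁ + x₂) + b₂ * x₁ * x₂) = v x₁ * v x₂ := by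
  apply val_num_eq H
  rw [val_bound hlt hA]
  exact mul_lt_of_lt_one_right (prod_pos hA) h1

/-- In case A1, `v S = v x₂ / v x₁`. -/
theorem val_S_A1 (H : URHyp2 v b₂ a₄ x₁ x₂ r₁ r₂) (hlt : v x₂ < v x₁)
    (hA : v a₄ < v x₁ * v x₂) (h1 : v x₁ < 1) :
    v (r₁ + r₂) = v x₂ / v x₁ := by
  have ha := a_pos hA
  rw [val_S H, val_num_A1 H hlt hA h1, val_sub hlt, pow_two, mul_comm (v x₁) (v x₂),
    mul_div_mul_right _ _ ha.ne']

/-- In case A1 the valuations of the two roots are `v x₂ / v x₁` and `v x₁ * v x₂`. -/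
theorem roots_A1 (H : URHyp2 v b₂ a₄ x₁ x₂ r₁ r₂) (hlt : v x₂ < v x₁)
    (hA : v a₄ < v x₁ * v x₂) (h1 : v x₁ < 1) :
    (v r₁ = v x₂ / v x₁ ∧ v r₂ = v x₁ * v x₂) ∨ (v r₂ = v x₂ / v x₁ ∧ v r₁ = v x₁ * v x₂) := by
  have ha := a_pos hA
  have hb := b_pos hA
  have hS := val_S_A1 H hlt hA h1
  have hP : v (r₁ * r₂) = v x₂ ^ 2 := val_Pi_A H hlt hA
  have hq : v x₂ / v x₁ ≠ 0 := div_ne_zero hb.ne' ha.ne'
  have hlt' : v (r₁ * r₂) < v (r₁ + r₂) ^ 2 := by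
    rw [hP, hS]
    apply pow_lt_pow_left₀ _ zero_le two_ne_zero
    rw [lt_div_iff₀ ha]
    exact mul_lt_of_lt_one_right hb h1
  have key : v x₁ * v x₂ * (v x₂ / v x₁) = v x₂ ^ 2 := by
    rw [mul_comm (v x₁) (v x₂), mul_assoc, mul_div_cancel₀ _ ha.ne', pow_two]
  rcases (Fermat.Agent.S05.newton_two_roots v rfl rfl).1 hlt' with ⟨h, h'⟩ | ⟨h, h'⟩
  · left
    refine ⟨h.trans hS, ?_⟩
    rw [hS, hP, ← key] at h'
    exact mul_right_cancel₀ hq h'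
  · right
    refine ⟨h.trans hS, ?_⟩
    rw [hS, hP, ← key] at h'
    exact mul_right_cancel₀ hq h'

/-! ### Case `1 ≤ v x₁` -/

/-- For `1 ≤ v x₁` the numerator of `S` has valuation at most `v x₂ * (v x₁)²`. -/
theorem val_num_le_A (H : URHyp2 v b₂ a₄ x₁ x₂ r₁ r₂) (hlt : v x₂ < v x₁)
    (hA : v a₄ < v x₁ * v x₂) (h1 : 1 ≤ v x₁) :
    v (2 * (x₁ * x₂ + a₄) * (x₁ + x₂) + b₂ * x₁ * x₂) ≤ v x₂ * v x₁ ^ 2 := by
  have e : v x₂ * v x₁ ^ 2 = v x₁ * v x₂ * v x₁ := by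
    rw [pow_two, mul_comm (v x₁) (v x₂), mul_assoc]
  apply val_num_le H
  · rw [val_bound hlt hA, e]
  · rw [e]
    exact le_mul_of_one_le_right zero_le h1

/-- For `1 ≤ v x₁`, `v S ≤ v x₂`. -/
theorem val_S_le (H : URHyp2 v b₂ a₄ x₁ x₂ r₁ r₂) (hlt : v x₂ < v x₁)
    (hA : v a₄ < v x₁ * v x₂) (h1 : 1 ≤ v x₁) :
    v (r₁ + r₂) ≤ v x₂ := by
  have ha := a_pos hA
  rw [val_S H, val_sub hlt, div_le_iff₀ (pow_pos ha 2)]
  exact val_num_le_A H hlt hA h1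

/-- For `1 ≤ v x₁` both roots have valuation `v x₂`. -/
theorem roots_of_one_le (H : URHyp2 v b₂ a₄ x₁ x₂ r₁ r₂) (hlt : v x₂ < v x₁)
    (hA : v a₄ < v x₁ * v x₂) (h1 : 1 ≤ v x₁) :
    v r₁ = v x₂ ∧ v r₂ = v x₂ := by
  have hP : v (r₁ * r₂) = v x₂ ^ 2 := val_Pi_A H hlt hA
  have hle : v (r₁ + r₂) ^ 2 ≤ v (r₁ * r₂) := by
    rw [hP]
    exact pow_le_pow_left₀ zero_le (val_S_le H hlt hA h1) 2
  obtain ⟨h, h'⟩ := (Fermat.Agent.S05.newton_two_roots v rfl rfl).2 hle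
  have h1' : v r₁ = v x₂ := by
    rw [hP] at h'
    exact (pow_left_inj₀ zero_le zero_le two_ne_zero).mp h'
  exact ⟨h1', h.symm.trans h1'⟩

/-- The conclusion of the unordered rule when `1 ≤ v x₁` (cases A2 and A3). -/
theorem concl_of_one_le (H : URHyp2 v b₂ a₄ x₁ x₂ r₁ r₂) (hlt : v x₂ < v x₁)
    (hA : v a₄ < v x₁ * v x₂) (h1 : 1 ≤ v x₁) :
    URConcl (v a₄) (v x₁) (v x₂) (v r₁) (v r₂) := by
  obtain ⟨hr₁, hr₂⟩ := roots_of_one_le H hlt hA h1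
  have hε := eps_pos H
  have hs : clip (v a₄) (v x₁) = 1 := Fermat.Agent.S05.URA.clip_of_one_le H.ha₄.le h1
  have ht0 : 0 < clip (v a₄) (v x₂) := hε.trans_le (Fermat.Agent.S05.URA.le_clip _ _)
  have ht1 : clip (v a₄) (v x₂) ≤ 1 := Fermat.Agent.S05.URA.clip_le_one H.ha₄.le _
  left
  rw [hr₁, hr₂, hs, one_mul, Fermat.Agent.S05.URA.fold_eq_self (Fermat.Agent.S05.URA.le_clip _ _),
    Fermat.Agent.S05.URA.qt_one_left ht0 ht1]
  exact ⟨rfl, rfl⟩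

end URA

theorem ur_A1 (H : URHyp2 v b₂ a₄ x₁ x₂ r₁ r₂) (hlt : v x₂ < v x₁) (hA : v a₄ < v x₁ * v x₂)
    (h1 : v x₁ < 1) : URConcl (v a₄) (v x₁) (v x₂) (v r₁) (v r₂) := by
  have ha := URA.a_pos hA
  have hb := URA.b_pos hA
  have hb1 : v x₂ < 1 := hlt.trans h1
  -- `ε < a b < b < a < 1`
  have hab_b : v x₁ * v x₂ < v x₂ := mul_lt_of_lt_one_left hb h1
  have hab_a : v x₁ * v x₂ < v x₁ := mul_lt_of_lt_one_right ha hb1
  have hb_q : v x₂ ≤ v x₂ / v x₁ := by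
    rw [le_div_iff₀ ha]
    exact mul_le_of_le_one_right zero_le h1.le
  have hq1 : v x₂ / v x₁ ≤ 1 := (div_le_one₀ ha).mpr hlt.le
  have hs : clip (v a₄) (v x₁) = v x₁ :=
    Fermat.Agent.S05.URA.clip_eq_self (hA.trans hab_a).le h1.le
  have ht : clip (v a₄) (v x₂) = v x₂ :=
    Fermat.Agent.S05.URA.clip_eq_self (hA.trans hab_b).le hb1.le
  have hcq : clip (v a₄) (v x₂ / v x₁) = v x₂ / v x₁ :=
    Fermat.Agent.S05.URA.clip_eq_self ((hA.trans hab_b).le.trans hb_q) hq1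
  have hcp : clip (v a₄) (v x₁ * v x₂) = v x₁ * v x₂ :=
    Fermat.Agent.S05.URA.clip_eq_self hA.le (hab_a.trans h1).le
  have hfold : fold (v a₄) (v x₁ * v x₂) = v x₁ * v x₂ :=
    Fermat.Agent.S05.URA.fold_eq_self hA.le
  have hqt : qt (v x₁) (v x₂) = v x₂ / v x₁ := Fermat.Agent.S05.URA.qt_eq_div hb hlt.le
  rcases URA.roots_A1 H hlt hA h1 with ⟨h, h'⟩ | ⟨h, h'⟩
  · right
    rw [h, h', hs, ht, hcq, hcp, hfold, hqt]
    exact ⟨rfl, rfl⟩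
  · left
    rw [h, h', hs, ht, hcq, hcp, hfold, hqt]
    exact ⟨rfl, rfl⟩

theorem ur_A2 (H : URHyp2 v b₂ a₄ x₁ x₂ r₁ r₂) (hlt : v x₂ < v x₁) (hA : v a₄ < v x₁ * v x₂)
    (h1 : v x₁ = 1) : URConcl (v a₄) (v x₁) (v x₂) (v r₁) (v r₂) :=
  URA.concl_of_one_le H hlt hA h1.ge

theorem ur_A3 (H : URHyp2 v b₂ a₄ x₁ x₂ r₁ r₂) (hlt : v x₂ < v x₁) (hA : v a₄ < v x₁ * v x₂)
    (h1 : 1 < v x₁) : URConcl (v a₄) (v x₁) (v x₂) (v r₁) (v r₂) :=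
  URA.concl_of_one_le H hlt hA h1.le

end Fermat.Agent.S13.TwoAdic.XCoreH
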