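import Fermat.Agent.S13.TwoAdic.XCoreH.Basic
import Fermat.Agent.S05.Core.URB

/-!
# XCoreH: field-level unordered rule, case family B (`v x₂ < v x₁`, `v x₁ * v x₂ < v a₄`)
(FROZEN statements; one worker; replace each `sorry`; helper lemmas in a sub-namespace `URB`.)

Setting (`URHyp2`, see `XDefs.lean`): `v b₂ = 1`, `a₄ ≠ 0`, `ε := v a₄ < 1`, `x₁ ≠ x₂`,
`r₁ + r₂ = S = (2 (x₁ x₂ + a₄) (x₁ + x₂) + b₂ x₁ x₂) / (x₁ - x₂)²`,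
`r₁ r₂ = Π = (x₁ x₂ - a₄)² / (x₁ - x₂)²`.  NO hypothesis `v 2 = 1` (only `v 2 ≤ 1`:
`val_two_le_one`).  Numerator of `S` = `T1 + T2`, `T1 = 2 (x₁ x₂ + a₄) (x₁ + x₂)` (only the upper
bound `v T1 ≤ v (x₁ x₂ + a₄) * v (x₁ + x₂)`, `val_T1_le`), `T2 = b₂ x₁ x₂` (`v T2 = v x₁ * v x₂`).
Use `Basic.lean`: `val_S`, `val_Pi`, `val_num_eq` (exact value when the `T1`-bound is strictly
smaller), `val_num_le` (upper bound), `eps_pos`; then `Fermat.Agent.S05.newton_two_roots`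
(`Fermat/Agent/S05/Core/Newton.lean`) to get `v r₁`, `v r₂` from `v S`, `v Π`; then clip.
ADDITIVE notation below: `w = -log v`, `N = w(a₄) > 0`, `e = w(2) ≥ 0`, `i = w(x₁)`, `j = w(x₂)`,
`clip` = clipping of `w` to `[0, N]`, `s = clip i`, `t = clip j`; the claim `URConcl` is
`{clip w(r₁), clip w(r₂)} = {|s - t|, s + t if s + t ≤ N else 2N - s - t}`.
TEMPLATE: the S05 file named below proves the same case for S05's `URHyp` (where `v 2 = 1`); its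
PURE `Γ₀`-lemmas (about `clip`, `fold`, `qt`, and the `concl_*` lemmas) can be used AS THEY ARE
(import the file, read-only; names `Fermat.Agent.S05.URA.clip_eq_self` etc.); only the valuation
computations of `S` and `Π` have to be redone with the bound for `T1`.
Template: `Fermat/Agent/S05/Core/URB.lean` (`ur_B1/B2/B3`, `URB.concl_B12`, `URB.concl_B3_aux`,
`URB.roots_B12`, `URB.roots_B3`).

Family B (`i < j`, `i + j > N`): `w(x₁ - x₂) = w(x₁ + x₂) = i`, `w(x₁x₂ ∓ a₄) = N`,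
`w(Π) = 2N - 2i`, `w(T1) ≥ e + N + i`, `w(T2) = i + j`.
* B1 (`j > N`) and B2 (`j = N`): `w(num) ≥ N + i`, so `w(S) ≥ N - i`, `2 w(S) ≥ w(Π)`: both roots
  have `w = N - i`; clipped `t = N`, both values `clip (N - i)` = `N - s` (three sub-cases
  `i < 0`, `0 ≤ i ≤ N`, `i > N` are handled by the pure lemma `URB.concl_B12`-style argument).
* B3 (`j < N`, hence `0 < i < j < N`): `w(T1) ≥ N + i > i + j = w(T2)`: `w(num) = i + j`,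
  `w(S) = j - i`, `2 w(S) < w(Π)`: roots `j - i` and `2N - i - j`.
-/

set_option autoImplicit false

namespace Fermat.Agent.S13.TwoAdic.XCoreH

open Fermat.Agent.S05 (fold qt clip URConcl)

variable {K : Type*} [Field K] {Γ₀ : Type*} [LinearOrderedCommGroupWithZero Γ₀]
variable {v : Valuation K Γ₀} {b₂ a₄ x₁ x₂ r₁ r₂ : K}

namespace URB

theorem a_pos (hlt : v x₂ < v x₁) : 0 < v x₁ := lt_of_le_of_lt zero_le hlt

theorem v_sub (hlt : v x₂ < v x₁) : v (x₁ - x₂) = v x₁ := v.map_sub_eq_of_lt_left hlt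

theorem v_add (hlt : v x₂ < v x₁) : v (x₁ + x₂) = v x₁ := v.map_add_eq_of_lt_left hlt

theorem v_mul_sub (hB : v x₁ * v x₂ < v a₄) : v (x₁ * x₂ - a₄) = v a₄ :=
  v.map_sub_eq_of_lt_right (by rw [map_mul]; exact hB)

theorem v_mul_add (hB : v x₁ * v x₂ < v a₄) : v (x₁ * x₂ + a₄) = v a₄ :=
  v.map_add_eq_of_lt_right (by rw [map_mul]; exact hB)

/-- `v Π = (ε / a)²`. -/
theorem v_prod (H : URHyp2 v b₂ a₄ x₁ x₂ r₁ r₂) (hlt : v x₂ < v x₁) (hB : v x₁ * v x₂ < v a₄) :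
    v (r₁ * r₂) = (v a₄ / v x₁) ^ 2 := by
  rw [val_Pi H, v_mul_sub hB, v_sub hlt, div_pow]

/-- `v S = v (numerator) / a²`. -/
theorem v_sum (H : URHyp2 v b₂ a₄ x₁ x₂ r₁ r₂) (hlt : v x₂ < v x₁) :
    v (r₁ + r₂) = v (2 * (x₁ * x₂ + a₄) * (x₁ + x₂) + b₂ * x₁ * x₂) / v x₁ ^ 2 := by
  rw [val_S H, v_sub hlt]

/-- Cases B1, B2: `v S ≤ ε / a`. -/
theorem v_sum_le (H : URHyp2 v b₂ a₄ x₁ x₂ r₁ r₂) (hlt : v x₂ < v x₁)
    (hB : v x₁ * v x₂ < v a₄) (h1 : v x₂ ≤ v a₄) : v (r₁ + r₂) ≤ v a₄ / v x₁ := by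
  have ha := a_pos hlt
  have hnum : v (2 * (x₁ * x₂ + a₄) * (x₁ + x₂) + b₂ * x₁ * x₂) ≤ v x₁ * v a₄ := by
    refine val_num_le H ?_ ?_
    · rw [v_mul_add hB, v_add hlt, mul_comm]
    · exact mul_le_mul' le_rfl h1
  rw [v_sum H hlt]
  calc v (2 * (x₁ * x₂ + a₄) * (x₁ + x₂) + b₂ * x₁ * x₂) / v x₁ ^ 2
      ≤ (v x₁ * v a₄) / v x₁ ^ 2 := (div_le_div_iff_of_pos_right (pow_pos ha 2)).mpr hnum
    _ = v a₄ / v x₁ := by rw [sq, mul_div_mul_left _ _ ha.ne']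

/-- Cases B1, B2: both roots have valuation `ε / a`. -/
theorem roots_B12 (H : URHyp2 v b₂ a₄ x₁ x₂ r₁ r₂) (hlt : v x₂ < v x₁)
    (hB : v x₁ * v x₂ < v a₄) (h1 : v x₂ ≤ v a₄) :
    v r₁ = v a₄ / v x₁ ∧ v r₂ = v a₄ / v x₁ := by
  have hS := v_sum_le H hlt hB h1
  have hP := v_prod H hlt hB
  obtain ⟨h12, hsq⟩ := (Fermat.Agent.S05.newton_two_roots v (rfl : r₁ + r₂ = r₁ + r₂)
    (rfl : r₁ * r₂ = r₁ * r₂)).2 (by rw [hP]; exact pow_le_pow_left' hS 2)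
  have hr1 : v r₁ = v a₄ / v x₁ := (pow_left_inj₀ zero_le zero_le two_ne_zero).1 (hsq.trans hP)
  exact ⟨hr1, h12 ▸ hr1⟩

/-- Cases B1, B2 together (`v x₂ ≤ v a₄`). -/
theorem concl_B12 (H : URHyp2 v b₂ a₄ x₁ x₂ r₁ r₂) (hlt : v x₂ < v x₁)
    (hB : v x₁ * v x₂ < v a₄) (h1 : v x₂ ≤ v a₄) :
    URConcl (v a₄) (v x₁) (v x₂) (v r₁) (v r₂) := by
  obtain ⟨hr1, hr2⟩ := roots_B12 H hlt hB h1
  have hε0 := eps_pos H
  have hε1 : v a₄ ≤ 1 := H.ha₄.le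
  have ha := a_pos hlt
  have hb : clip (v a₄) (v x₂) = v a₄ := Fermat.Agent.S05.URB.clip_of_le h1
  have hs0 : v a₄ ≤ clip (v a₄) (v x₁) := Fermat.Agent.S05.URB.le_clip _ _
  have hs1 : clip (v a₄) (v x₁) ≤ 1 := Fermat.Agent.S05.URB.clip_le_one hε1 _
  left
  rw [hr1, hr2, hb, Fermat.Agent.S05.URB.clip_div hε0 hε1 ha,
    Fermat.Agent.S05.URB.fold_mul_eps hε0 hs1, Fermat.Agent.S05.URB.qt_eps hε0 hs0]
  exact ⟨rfl, rfl⟩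

/-- Case B3: `a < 1`. -/
theorem a_lt_one (hB : v x₁ * v x₂ < v a₄) (h1 : v a₄ < v x₂) : v x₁ < 1 := by
  by_contra h
  have h' : v x₂ ≤ v x₁ * v x₂ := le_mul_of_one_le_left' (not_lt.1 h)
  exact absurd (h'.trans_lt hB) (not_lt.2 h1.le)

/-- Case B3: `v (numerator) = a b`. -/
theorem v_num_B3 (H : URHyp2 v b₂ a₄ x₁ x₂ r₁ r₂) (hlt : v x₂ < v x₁)
    (hB : v x₁ * v x₂ < v a₄) (h1 : v a₄ < v x₂) :
    v (2 * (x₁ * x₂ + a₄) * (x₁ + x₂) + b₂ * x₁ * x₂) = v x₁ * v x₂ := by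
  refine val_num_eq H ?_
  rw [v_mul_add hB, v_add hlt, mul_comm]
  exact (mul_lt_mul_iff_of_pos_left (a_pos hlt)).mpr h1

/-- Case B3: `v S = b / a`. -/
theorem v_sum_B3 (H : URHyp2 v b₂ a₄ x₁ x₂ r₁ r₂) (hlt : v x₂ < v x₁)
    (hB : v x₁ * v x₂ < v a₄) (h1 : v a₄ < v x₂) : v (r₁ + r₂) = v x₂ / v x₁ := by
  rw [v_sum H hlt, v_num_B3 H hlt hB h1, sq, mul_div_mul_left _ _ (a_pos hlt).ne']

/-- Case B3: the two roots have valuations `b / a` and `ε² / (a b)`. -/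
theorem roots_B3 (H : URHyp2 v b₂ a₄ x₁ x₂ r₁ r₂) (hlt : v x₂ < v x₁)
    (hB : v x₁ * v x₂ < v a₄) (h1 : v a₄ < v x₂) :
    (v r₁ = v x₂ / v x₁ ∧ v r₂ = v a₄ ^ 2 / (v x₁ * v x₂)) ∨
      (v r₂ = v x₂ / v x₁ ∧ v r₁ = v a₄ ^ 2 / (v x₁ * v x₂)) := by
  have ha := a_pos hlt
  have hb : 0 < v x₂ := lt_trans (eps_pos H) h1
  have hS := v_sum_B3 H hlt hB h1
  have hP := v_prod H hlt hB
  have hlt' : v (r₁ * r₂) < v (r₁ + r₂) ^ 2 := by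
    rw [hP, hS]
    exact pow_lt_pow_left₀ ((div_lt_div_iff_of_pos_right ha).mpr h1) zero_le two_ne_zero
  rcases (Fermat.Agent.S05.newton_two_roots v (rfl : r₁ + r₂ = r₁ + r₂)
    (rfl : r₁ * r₂ = r₁ * r₂)).1 hlt' with ⟨h, h'⟩ | ⟨h, h'⟩
  · left
    rw [hS] at h h'
    rw [hP] at h'
    exact ⟨h, Fermat.Agent.S05.URB.other_root ha hb h'⟩
  · right
    rw [hS] at h h'
    rw [hP] at h'
    exact ⟨h, Fermat.Agent.S05.URB.other_root ha hb h'⟩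

end URB

theorem ur_B1 (H : URHyp2 v b₂ a₄ x₁ x₂ r₁ r₂) (hlt : v x₂ < v x₁) (hB : v x₁ * v x₂ < v a₄)
    (h1 : v x₂ < v a₄) : URConcl (v a₄) (v x₁) (v x₂) (v r₁) (v r₂) := by
  exact URB.concl_B12 H hlt hB h1.le

theorem ur_B2 (H : URHyp2 v b₂ a₄ x₁ x₂ r₁ r₂) (hlt : v x₂ < v x₁) (hB : v x₁ * v x₂ < v a₄)
    (h1 : v x₂ = v a₄) : URConcl (v a₄) (v x₁) (v x₂) (v r₁) (v r₂) := by
  exact URB.concl_B12 H hlt hB h1.le

theorem ur_B3 (H : URHyp2 v b₂ a₄ x₁ x₂ r₁ r₂) (hlt : v x₂ < v x₁) (hB : v x₁ * v x₂ < v a₄)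
    (h1 : v a₄ < v x₂) : URConcl (v a₄) (v x₁) (v x₂) (v r₁) (v r₂) := by
  have hε0 := eps_pos H
  obtain ⟨hq, hf⟩ := Fermat.Agent.S05.URB.concl_B3_aux hε0 h1 hlt (URB.a_lt_one hB h1) hB
  rcases URB.roots_B3 H hlt hB h1 with ⟨h, h'⟩ | ⟨h, h'⟩
  · right
    rw [h, h']
    exact ⟨hq, hf⟩
  · left
    rw [h, h']
    exact ⟨hf, hq⟩

end Fermat.Agent.S13.TwoAdic.XCoreH
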