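import Fermat.Agent.S13.TwoAdic.XCoreH.Basic
import Fermat.Agent.S05.Core.URC

/-!
# XCoreH: field-level unordered rule, case family C (`v x₂ < v x₁`, `v x₁ * v x₂ = v a₄`)
(FROZEN statements; one worker; replace each `sorry`; helper lemmas in a sub-namespace `URC`.)

Setting (`URHyp2`, see `XDefs.lean`): `v b₂ = 1`, `a₄ ≠ 0`, `ε := v a₄ < 1`, `x₁ ≠ x₂`,
`r₁ + r₂ = S = (2 (x₁ x₂ + a₄) (x₁ + x₂) + b₂ x₁ x₂) / (x₁ - x₂)²`,
`r₁ r₂ = Π = (x₁ x₂ - a₄)² / (x₁ - x₂)²`.  NO hypothesis `v 2 = 1` (only `v 2 ≤ 1`: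
`val_two_le_one`).  Numerator of `S` = `T1 + T2`, `T1 = 2 (x₁ x₂ + a₄) (x₁ + x₂)` (only the upper
bound `v T1 ≤ v (x₁ x₂ + a₄) * v (x₁ + x₂)`, `val_T1_le`), `T2 = b₂ x₁ x₂` (`v T2 = v x₁ * v x₂`).
Use `Basic.lean`: `val_S`, `val_Pi`, `val_num_eq` (exact value when the `T1`-bound is strictly
smaller), `val_num_le` (upper bound), `eps_pos`; then `Fermat.Agent.S05.newton_two_roots`
(`Fermat/Agent/S05/Core/Newton.lean`) to get `v r₁`, `v r₂` from `v S`, `v Π`; then clip.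
ADDITIVE notation below: `w = -log v`, `N = w(a₄) > 0`, `e = w(2) ≥ 0`, `i = w(x₁)`, `j = w(x₂)`,
`clip` = clipping of `w` to `[0, N]`, `s = clip i`, `t = clip j`; the claim `URConcl` is
`{clip w(r₁), clip w(r₂)} = {|s - t|, s + t if s + t ≤ N else 2N - s - t}`.
TEMPLATE: the S05 file named below proves the same case for S05's `URHyp` (where `v 2 = 1`); its
PURE `Γ₀`-lemmas (about `clip`, `fold`, `qt`, and the `concl_*` lemmas) can be used AS THEY ARE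
(import the file, read-only; names `Fermat.Agent.S05.URA.clip_eq_self` etc.); only the valuation
computations of `S` and `Π` have to be redone with the bound for `T1`.
Template: `Fermat/Agent/S05/Core/URC.lean` (`ur_C1`, `ur_C2`; the pure lemmas `URC.concl_C1`,
`URC.concl_C2` take exactly the facts "`v S = …`/`v S ≤ …`" and "`v Π ≤ …`" as hypotheses — read
their statements and feed them the new valuation facts).

Family C (`i < j`, `i + j = N`): `w(x₁ - x₂) = w(x₁ + x₂) = i`; `w(x₁x₂ - a₄) ≥ N` and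
`w(x₁x₂ + a₄) ≥ N` (cancellation possible in BOTH, e.g. in residue characteristic 2; `Π = 0` is
possible); so `w(Π) ≥ 2N - 2i = 2j`, `w(T1) ≥ e + N + i`, `w(T2) = i + j = N`.
* C1 (`i > 0`): `T2` dominates strictly (`e + i > 0`): `w(num) = N`, `w(S) = N - 2i = j - i`;
  `2 w(S) < 2j ≤ w(Π)`: roots `j - i` and `w(Π) - (j - i) ≥ N`; clipped `{j - i, N}`.
* C2 (`i ≤ 0`, so `j ≥ N`, `s = 0`, `t = N`): `w(num) ≥ N + i`, `w(S) ≥ N - i ≥ N`,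
  `w(Π) ≥ 2N - 2i ≥ 2N`: both roots have `w ≥ N`; clipped `{N, N}`.
-/

set_option autoImplicit false

namespace Fermat.Agent.S13.TwoAdic.XCoreH

open Fermat.Agent.S05 (fold qt clip URConcl)

variable {K : Type*} [Field K] {Γ₀ : Type*} [LinearOrderedCommGroupWithZero Γ₀]
variable {v : Valuation K Γ₀} {b₂ a₄ x₁ x₂ r₁ r₂ : K}

namespace URC

/-- `v (x₁ x₂ + a₄) ≤ v a₄` in family C. -/
theorem val_plus_le (hC : v x₁ * v x₂ = v a₄) : v (x₁ * x₂ + a₄) ≤ v a₄ := by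
  refine Valuation.map_add_le v ?_ le_rfl
  rw [map_mul, hC]

/-- `v (x₁ x₂ - a₄) ≤ v a₄` in family C. -/
theorem val_minus_le (hC : v x₁ * v x₂ = v a₄) : v (x₁ * x₂ - a₄) ≤ v a₄ := by
  refine Valuation.map_sub_le v ?_ le_rfl
  rw [map_mul, hC]

/-- `v (r₁ r₂) ≤ (v a₄)² / (v x₁)²` in family C. -/
theorem val_prod_le (H : URHyp2 v b₂ a₄ x₁ x₂ r₁ r₂) (hlt : v x₂ < v x₁)
    (hC : v x₁ * v x₂ = v a₄) : v (r₁ * r₂) ≤ v a₄ ^ 2 / v x₁ ^ 2 := by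
  have hD : v (x₁ - x₂) = v x₁ := Valuation.map_sub_eq_of_lt_left v hlt
  have hB : v (x₁ * x₂ - a₄) ≤ v a₄ := val_minus_le hC
  rw [val_Pi H, hD]
  exact div_le_div_of_nonneg_right (pow_le_pow_left₀ zero_le hB 2) zero_le

/-- `v (r₁ + r₂) = v a₄ / (v x₁)²` in case C1. -/
theorem val_sum_C1 (H : URHyp2 v b₂ a₄ x₁ x₂ r₁ r₂) (hlt : v x₂ < v x₁)
    (hC : v x₁ * v x₂ = v a₄) (h1 : v x₁ < 1) : v (r₁ + r₂) = v a₄ / v x₁ ^ 2 := by
  have hD : v (x₁ - x₂) = v x₁ := Valuation.map_sub_eq_of_lt_left v hlt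
  have hA : v (x₁ + x₂) = v x₁ := Valuation.map_add_eq_of_lt_left v hlt
  have hU : v (x₁ * x₂ + a₄) * v (x₁ + x₂) < v x₁ * v x₂ := by
    rw [hA, hC]
    calc v (x₁ * x₂ + a₄) * v x₁ ≤ v a₄ * v x₁ := mul_le_mul' (val_plus_le hC) le_rfl
      _ < v a₄ := mul_lt_of_lt_one_right (eps_pos H) h1
  rw [val_S H, val_num_eq H hU, hD, hC]

/-- `v (r₁ + r₂) ≤ v a₄ / v x₁` in case C2. -/
theorem val_sum_C2 (H : URHyp2 v b₂ a₄ x₁ x₂ r₁ r₂) (hlt : v x₂ < v x₁)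
    (hC : v x₁ * v x₂ = v a₄) (h1 : 1 ≤ v x₁) : v (r₁ + r₂) ≤ v a₄ / v x₁ := by
  have hD : v (x₁ - x₂) = v x₁ := Valuation.map_sub_eq_of_lt_left v hlt
  have hA : v (x₁ + x₂) = v x₁ := Valuation.map_add_eq_of_lt_left v hlt
  have hapos : 0 < v x₁ := lt_of_lt_of_le zero_lt_one h1
  have ha0 : v x₁ ≠ 0 := hapos.ne'
  have hnum : v (2 * (x₁ * x₂ + a₄) * (x₁ + x₂) + b₂ * x₁ * x₂) ≤ v x₁ * v a₄ := by
    refine val_num_le H ?_ ?_
    · rw [hA, mul_comm]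
      exact mul_le_mul' le_rfl (val_plus_le hC)
    · rw [hC]
      exact le_mul_of_one_le_left' h1
  rw [val_S H, hD]
  calc v (2 * (x₁ * x₂ + a₄) * (x₁ + x₂) + b₂ * x₁ * x₂) / v x₁ ^ 2
      ≤ v x₁ * v a₄ / v x₁ ^ 2 := div_le_div_of_nonneg_right hnum zero_le
    _ = v a₄ / v x₁ := by field_simp

end URC

theorem ur_C1 (H : URHyp2 v b₂ a₄ x₁ x₂ r₁ r₂) (hlt : v x₂ < v x₁) (hC : v x₁ * v x₂ = v a₄)
    (h1 : v x₁ < 1) : URConcl (v a₄) (v x₁) (v x₂) (v r₁) (v r₂) := by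
  exact Fermat.Agent.S05.URC.concl_C1 (eps_ne_zero H) hC hlt h1
    (URC.val_sum_C1 H hlt hC h1) (URC.val_prod_le H hlt hC)
    (Fermat.Agent.S05.newton_two_roots v rfl rfl).1

theorem ur_C2 (H : URHyp2 v b₂ a₄ x₁ x₂ r₁ r₂) (hlt : v x₂ < v x₁) (hC : v x₁ * v x₂ = v a₄)
    (h1 : 1 ≤ v x₁) : URConcl (v a₄) (v x₁) (v x₂) (v r₁) (v r₂) := by
  exact Fermat.Agent.S05.URC.concl_C2 (eps_ne_zero H) H.ha₄ hC h1
    (URC.val_sum_C2 H hlt hC h1) (URC.val_prod_le H hlt hC)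
    (Fermat.Agent.S05.newton_two_roots v rfl rfl)

end Fermat.Agent.S13.TwoAdic.XCoreH
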