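import Fermat.Agent.S13.TwoAdic.XCoreH.Basic
import Fermat.Agent.S05.Core.URD3

/-!
# XCoreH: field-level unordered rule, case D3 (`v a₄ < v x₁ = v x₂ < 1`)
(FROZEN statements, all proved; helper lemmas in the sub-namespace `URD3`.)

Setting (`URHyp2`, see `XDefs.lean`): `v b₂ = 1`, `a₄ ≠ 0`, `ε := v a₄ < 1`, `x₁ ≠ x₂`,
`r₁ + r₂ = S = (2 (x₁ x₂ + a₄) (x₁ + x₂) + b₂ x₁ x₂) / (x₁ - x₂)²`,
`r₁ r₂ = Π = (x₁ x₂ - a₄)² / (x₁ - x₂)²`.  NO hypothesis `v 2 = 1` (only `v 2 ≤ 1`: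
`val_two_le_one`).  Numerator of `S` = `T1 + T2`, `T1 = 2 (x₁ x₂ + a₄) (x₁ + x₂)` (only the upper
bound `v T1 ≤ v (x₁ x₂ + a₄) * v (x₁ + x₂)`, `val_T1_le`), `T2 = b₂ x₁ x₂` (`v T2 = v x₁ * v x₂`).
Use `Basic.lean`: `val_S`, `val_Pi`, `val_num_eq` (exact value when the `T1`-bound is strictly
smaller), `val_num_le` (upper bound), `eps_pos`; then `Fermat.Agent.S05.newton_two_roots`
(`Fermat/Agent/S05/Core/Newton.lean`) to get `v r₁`, `v r₂` from `v S`, `v Π`; then clip.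
ADDITIVE notation below: `w = -log v`, `N = w(a₄) > 0`, `e = w(2) ≥ 0`, `i = w(x₁)`, `j = w(x₂)`,
`clip` = clipping of `w` to `[0, N]`, `s = clip i`, `t = clip j`; the claim `URConcl` is
`{clip w(r₁), clip w(r₂)} = {|s - t|, s + t if s + t ≤ N else 2N - s - t}`.
TEMPLATE: the S05 file named below proves the same case for S05's `URHyp` (where `v 2 = 1`); its
PURE `Γ₀`-lemmas (about `clip`, `fold`, `qt`, and the `concl_*` lemmas) can be used AS THEY ARE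
(import the file, read-only; names `Fermat.Agent.S05.URA.clip_eq_self` etc.); only the valuation
computations of `S` and `Π` have to be redone with the bound for `T1`.
Template: `Fermat/Agent/S05/Core/URD3.lean` (`ur_D3a/b/c`; pure lemma `URD3.concl_of`; `URD3.roots`).

D3 (`0 < i = j < N`; `s = t = i`; claim `{clip w(r₁), clip w(r₂)} = {0, fold (2i)}`):
`δ := w(x₁ - x₂) ≥ i > 0`, `w(x₁ + x₂) ≥ i`, `w(T2) = 2i`.
* D3a (`2i < N`): `w(x₁x₂ ∓ a₄) = 2i`, `w(Π) = 4i - 2δ`, `w(T1) ≥ e + 3i > 2i`: `w(num) = 2i`,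
  `w(S) = 2i - 2δ ≤ 0`, `2 w(S) < w(Π)` (as `δ > 0`): roots `2i - 2δ ≤ 0` (clip `0`) and `2i`.
* D3b (`2i > N`): `w(x₁x₂ ∓ a₄) = N`, `w(Π) = 2N - 2δ`, `w(T1) ≥ e + N + i > 2i`: `w(num) = 2i`,
  `w(S) = 2i - 2δ ≤ 0`, `2 w(S) < w(Π)` (as `δ ≥ i > 2i - N`): roots `2i - 2δ` (clip `0`), `2N - 2i`.
* D3c (`2i = N`): `w(x₁x₂ ∓ a₄) ≥ N` (cancellation possible in both; `Π = 0` possible),
  `w(Π) ≥ 2N - 2δ`, `w(T1) ≥ e + N + i > N = w(T2)`: `w(num) = N`, `w(S) = N - 2δ ≤ 0`,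
  `2 w(S) < w(Π)`: roots `N - 2δ` (clip `0`) and `w(Π) - w(S) ≥ N` (clip `N`).
-/

set_option autoImplicit false

namespace Fermat.Agent.S13.TwoAdic.XCoreH

open Fermat.Agent.S05 (fold qt clip URConcl)

variable {K : Type*} [Field K] {Γ₀ : Type*} [LinearOrderedCommGroupWithZero Γ₀]
variable {v : Valuation K Γ₀} {b₂ a₄ x₁ x₂ r₁ r₂ : K}

namespace URD3

/-! ### Valuations of the ingredients -/

theorem vx₁_pos (hε : v a₄ < v x₁) : 0 < v x₁ := lt_of_le_of_lt zero_le hε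

theorem vsub_le (heq : v x₁ = v x₂) : v (x₁ - x₂) ≤ v x₁ :=
  v.map_sub_le le_rfl heq.ge

theorem v_xx (heq : v x₁ = v x₂) : v (x₁ * x₂) = v x₁ ^ 2 := by
  rw [map_mul, ← heq, pow_two]

/-- The bound for the first term `T1` of the numerator of `S` is strictly smaller than the
valuation of the second term `T2`. -/
theorem v_small (heq : v x₁ = v x₂) (h1 : v x₁ < 1) (hε : v a₄ < v x₁) :
    v (x₁ * x₂ + a₄) * v (x₁ + x₂) < v x₁ * v x₂ := by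
  have h0 : 0 < v x₁ := vx₁_pos hε
  have hA : v (x₁ + x₂) ≤ v x₁ := v.map_add_le le_rfl heq.ge
  have hB : v (x₁ * x₂ + a₄) < v x₁ := by
    refine v.map_add_lt ?_ hε
    rw [v_xx heq]
    exact Fermat.Agent.S05.URD3.sq_lt_self h0 h1
  rw [← heq]
  exact lt_of_le_of_lt (mul_le_mul' le_rfl hA) (mul_lt_mul_of_pos_right hB h0)

/-- The numerator of `S` has valuation exactly `(v x₁)²`. -/
theorem v_num (H : URHyp2 v b₂ a₄ x₁ x₂ r₁ r₂) (heq : v x₁ = v x₂) (h1 : v x₁ < 1)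
    (hε : v a₄ < v x₁) :
    v (2 * (x₁ * x₂ + a₄) * (x₁ + x₂) + b₂ * x₁ * x₂) = v x₁ ^ 2 := by
  rw [val_num_eq H (v_small heq h1 hε), ← heq, pow_two]

/-- `v S = (v x₁)² / (v (x₁ - x₂))²`. -/
theorem v_sum (H : URHyp2 v b₂ a₄ x₁ x₂ r₁ r₂) (heq : v x₁ = v x₂) (h1 : v x₁ < 1)
    (hε : v a₄ < v x₁) : v (r₁ + r₂) = v x₁ ^ 2 / v (x₁ - x₂) ^ 2 := by
  rw [val_S H, v_num H heq h1 hε]

/-- `v (x₁ x₂ - a₄) < v x₁`. -/
theorem v_tau_lt (heq : v x₁ = v x₂) (h1 : v x₁ < 1) (hε : v a₄ < v x₁) :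
    v (x₁ * x₂ - a₄) < v x₁ := by
  refine v.map_sub_lt ?_ hε
  rw [v_xx heq]
  exact Fermat.Agent.S05.URD3.sq_lt_self (vx₁_pos hε) h1

/-- `1 ≤ v S`. -/
theorem one_le_v_sum (H : URHyp2 v b₂ a₄ x₁ x₂ r₁ r₂) (heq : v x₁ = v x₂) :
    1 ≤ v x₁ ^ 2 / v (x₁ - x₂) ^ 2 := by
  rw [one_le_div₀ (pow_pos (val_sub_pos H) 2)]
  exact pow_le_pow_left₀ zero_le (vsub_le heq) 2

/-- The Newton polygon: one root has `1 ≤ v r`, the other one satisfies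
`v r * (v x₁)² = (v (x₁ x₂ - a₄))²`. -/
theorem roots (H : URHyp2 v b₂ a₄ x₁ x₂ r₁ r₂) (heq : v x₁ = v x₂) (h1 : v x₁ < 1)
    (hε : v a₄ < v x₁) :
    (1 ≤ v r₁ ∧ v r₂ * v x₁ ^ 2 = v (x₁ * x₂ - a₄) ^ 2) ∨
      (1 ≤ v r₂ ∧ v r₁ * v x₁ ^ 2 = v (x₁ * x₂ - a₄) ^ 2) := by
  have hd0 : 0 < v (x₁ - x₂) ^ 2 := pow_pos (val_sub_pos H) 2
  have hS1 : 1 ≤ v x₁ ^ 2 / v (x₁ - x₂) ^ 2 := one_le_v_sum H heq
  have hlt : v (r₁ * r₂) < v (r₁ + r₂) ^ 2 := by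
    rw [val_Pi H, v_sum H heq h1 hε]
    refine lt_of_lt_of_le ?_ (le_self_pow₀ hS1 two_ne_zero)
    exact (div_lt_div_iff_of_pos_right hd0).mpr
      (pow_lt_pow_left₀ (v_tau_lt heq h1 hε) zero_le two_ne_zero)
  have key : ∀ x : Γ₀, x * (v x₁ ^ 2 / v (x₁ - x₂) ^ 2) =
      v (x₁ * x₂ - a₄) ^ 2 / v (x₁ - x₂) ^ 2 → x * v x₁ ^ 2 = v (x₁ * x₂ - a₄) ^ 2 := by
    intro x hx
    rw [← mul_div_assoc] at hx
    exact (div_left_inj' hd0.ne').mp hx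
  rcases (Fermat.Agent.S05.newton_two_roots v (rfl : r₁ + r₂ = r₁ + r₂)
    (rfl : r₁ * r₂ = r₁ * r₂)).1 hlt with ⟨h1', h2'⟩ | ⟨h1', h2'⟩
  · rw [v_sum H heq h1 hε] at h1' h2'
    rw [val_Pi H] at h2'
    exact Or.inl ⟨h1'.symm ▸ hS1, key _ h2'⟩
  · rw [v_sum H heq h1 hε] at h1' h2'
    rw [val_Pi H] at h2'
    exact Or.inr ⟨h1'.symm ▸ hS1, key _ h2'⟩

/-- Reduction of the three cases to a statement on the small root. -/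
theorem concl (H : URHyp2 v b₂ a₄ x₁ x₂ r₁ r₂) (heq : v x₁ = v x₂) (h1 : v x₁ < 1)
    (hε : v a₄ < v x₁)
    (hx : ∀ x : Γ₀, x * v x₁ ^ 2 = v (x₁ * x₂ - a₄) ^ 2 →
      clip (v a₄) x = fold (v a₄) (v x₁ * v x₁)) :
    URConcl (v a₄) (v x₁) (v x₂) (v r₁) (v r₂) := by
  rw [← heq]
  refine Fermat.Agent.S05.URD3.concl_of hε h1 ?_
  rcases roots H heq h1 hε with ⟨h, h'⟩ | ⟨h, h'⟩
  · exact Or.inl ⟨h, hx _ h'⟩
  · exact Or.inr ⟨h, hx _ h'⟩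

end URD3

theorem ur_D3a (H : URHyp2 v b₂ a₄ x₁ x₂ r₁ r₂) (heq : v x₁ = v x₂) (h1 : v x₁ < 1)
    (hε : v a₄ < v x₁) (h3 : v a₄ < v x₁ ^ 2) : URConcl (v a₄) (v x₁) (v x₂) (v r₁) (v r₂) := by
  have h0 : 0 < v x₁ := URD3.vx₁_pos hε
  have hτ : v (x₁ * x₂ - a₄) = v x₁ ^ 2 := by
    rw [Valuation.map_sub_eq_of_lt_left v (by rw [URD3.v_xx heq]; exact h3), URD3.v_xx heq]
  refine URD3.concl H heq h1 hε fun x hx => ?_
  rw [hτ, pow_two (v x₁ ^ 2)] at hx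
  have hx' : x = v x₁ ^ 2 := mul_right_cancel₀ (pow_pos h0 2).ne' hx
  rw [hx', ← pow_two, fold, if_pos h3.le]
  exact Fermat.Agent.S05.URD3.clip_of_mem h3.le (Fermat.Agent.S05.URD3.sq_lt_one h0 h1).le

theorem ur_D3b (H : URHyp2 v b₂ a₄ x₁ x₂ r₁ r₂) (heq : v x₁ = v x₂) (h1 : v x₁ < 1)
    (hε : v a₄ < v x₁) (h3 : v x₁ ^ 2 < v a₄) : URConcl (v a₄) (v x₁) (v x₂) (v r₁) (v r₂) := by
  have h0 : 0 < v x₁ := URD3.vx₁_pos hε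
  have h20 : 0 < v x₁ ^ 2 := pow_pos h0 2
  have hτ : v (x₁ * x₂ - a₄) = v a₄ := by
    rw [Valuation.map_sub_eq_of_lt_right v (by rw [URD3.v_xx heq]; exact h3)]
  refine URD3.concl H heq h1 hε fun x hx => ?_
  rw [hτ] at hx
  have hx' : x = v a₄ ^ 2 / v x₁ ^ 2 := (eq_div_iff h20.ne').mpr hx
  rw [hx', ← pow_two, fold, if_neg (not_le.mpr h3)]
  refine Fermat.Agent.S05.URD3.clip_of_mem ?_ ?_
  · rw [le_div_iff₀ h20, pow_two (v a₄)]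
    exact mul_le_mul' le_rfl h3.le
  · rw [div_le_one₀ h20]
    exact pow_le_pow_left₀ zero_le hε.le 2

theorem ur_D3c (H : URHyp2 v b₂ a₄ x₁ x₂ r₁ r₂) (heq : v x₁ = v x₂) (h1 : v x₁ < 1)
    (hε : v a₄ < v x₁) (h3 : v x₁ ^ 2 = v a₄) : URConcl (v a₄) (v x₁) (v x₂) (v r₁) (v r₂) := by
  have h0 : 0 < v x₁ := URD3.vx₁_pos hε
  have h20 : 0 < v x₁ ^ 2 := pow_pos h0 2
  have hτ : v (x₁ * x₂ - a₄) ≤ v a₄ := by
    refine v.map_sub_le ?_ le_rfl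
    rw [URD3.v_xx heq, h3]
  refine URD3.concl H heq h1 hε fun x hx => ?_
  have hxle : x ≤ v a₄ := by
    refine le_of_mul_le_mul_right ?_ h20
    rw [hx]
    rw [h3, ← pow_two]
    exact pow_le_pow_left₀ zero_le hτ 2
  rw [← pow_two, fold, if_pos h3.ge, h3]
  exact Fermat.Agent.S05.URD3.clip_of_le H.ha₄.le hxle

end Fermat.Agent.S13.TwoAdic.XCoreH
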