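import Fermat.Agent.S13.TwoAdic.XCoreH.Basic
import Fermat.Agent.S05.Core.URD

/-!
# XCoreH: field-level unordered rule, case D4 (`v x₁ = v x₂ ≤ v a₄`)
(FROZEN statement; one worker; replace the `sorry`; helper lemmas in a sub-namespace `URD4`.)

Setting (`URHyp2`, see `XDefs.lean`): `v b₂ = 1`, `a₄ ≠ 0`, `ε := v a₄ < 1`, `x₁ ≠ x₂`,
`r₁ + r₂ = S = (2 (x₁ x₂ + a₄) (x₁ + x₂) + b₂ x₁ x₂) / (x₁ - x₂)²`,
`r₁ r₂ = Π = (x₁ x₂ - a₄)² / (x₁ - x₂)²`.  NO hypothesis `v 2 = 1` (only `v 2 ≤ 1`: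
`val_two_le_one`).  Numerator of `S` = `T1 + T2`, `T1 = 2 (x₁ x₂ + a₄) (x₁ + x₂)` (only the upper
bound `v T1 ≤ v (x₁ x₂ + a₄) * v (x₁ + x₂)`, `val_T1_le`), `T2 = b₂ x₁ x₂` (`v T2 = v x₁ * v x₂`).
Use `Basic.lean`: `val_S`, `val_Pi`, `val_num_eq` (exact value when the `T1`-bound is strictly
smaller), `val_num_le` (upper bound), `eps_pos`; then `Fermat.Agent.S05.newton_two_roots`
(`Fermat/Agent/S05/Core/Newton.lean`) to get `v r₁`, `v r₂` from `v S`, `v Π`; then clip.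
ADDITIVE notation below: `w = -log v`, `N = w(a₄) > 0`, `e = w(2) ≥ 0`, `i = w(x₁)`, `j = w(x₂)`,
`clip` = clipping of `w` to `[0, N]`, `s = clip i`, `t = clip j`; the claim `URConcl` is
`{clip w(r₁), clip w(r₂)} = {|s - t|, s + t if s + t ≤ N else 2N - s - t}`.
TEMPLATE: the S05 file named below proves the same case for S05's `URHyp` (where `v 2 = 1`); its
PURE `Γ₀`-lemmas (about `clip`, `fold`, `qt`, and the `concl_*` lemmas) can be used AS THEY ARE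
(import the file, read-only; names `Fermat.Agent.S05.URA.clip_eq_self` etc.); only the valuation
computations of `S` and `Π` have to be redone with the bound for `T1`.
Template: `Fermat/Agent/S05/Core/URD.lean` (`ur_D4`; pure lemma `URD.concl_eps`).

D4 (`i = j ≥ N`; `s = t = N`; claim: both roots have `w ≤ 0`, i.e. `1 ≤ v r`, clipped values
`1 = qt ε ε = fold ε (ε * ε)`): `δ := w(x₁ - x₂) ≥ i`, `w(x₁ + x₂) ≥ i`; `w(x₁x₂) = 2i > N` so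
`w(x₁x₂ ∓ a₄) = N`; `w(Π) = 2N - 2δ ≤ 2N - 2i ≤ 0`; `w(T2) = 2i`, `w(T1) ≥ e + N + i`, so
`w(num) ≥ N + i` and `w(S) ≥ N + i - 2δ`.  If `2 w(S) ≥ w(Π)`: both roots `N - δ ≤ 0`.  Otherwise the
roots are `w(S) < N - δ ≤ 0` and `w(Π) - w(S) ≤ 2N - 2δ - (N + i - 2δ) = N - i ≤ 0`.
-/

set_option autoImplicit false

namespace Fermat.Agent.S13.TwoAdic.XCoreH

open Fermat.Agent.S05 (fold qt clip URConcl)

variable {K : Type*} [Field K] {Γ₀ : Type*} [LinearOrderedCommGroupWithZero Γ₀]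
variable {v : Valuation K Γ₀} {b₂ a₄ x₁ x₂ r₁ r₂ : K}

namespace URD4

/-- Both roots have valuation `≥ 1` as soon as `v (x₁ - x₂) ≤ v (x₁ x₂ - a₄)` and the numerator
of the sum is bounded by `v (x₁ x₂ - a₄) ^ 2`. -/
theorem one_le_both (H : URHyp2 v b₂ a₄ x₁ x₂ r₁ r₂)
    (hm : v (x₁ - x₂) ≤ v (x₁ * x₂ - a₄))
    (hn : v (2 * (x₁ * x₂ + a₄) * (x₁ + x₂) + b₂ * x₁ * x₂) ≤ v (x₁ * x₂ - a₄) ^ 2) :
    1 ≤ v r₁ ∧ 1 ≤ v r₂ := by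
  have hδ2 : 0 < v (x₁ - x₂) ^ 2 := pow_pos (val_sub_pos H) 2
  have hT : v ((x₁ * x₂ - a₄) ^ 2 / (x₁ - x₂) ^ 2)
      = v (x₁ * x₂ - a₄) ^ 2 / v (x₁ - x₂) ^ 2 := by
    rw [map_div₀, map_pow, map_pow]
  have hS : v ((2 * (x₁ * x₂ + a₄) * (x₁ + x₂) + b₂ * x₁ * x₂) / (x₁ - x₂) ^ 2)
      = v (2 * (x₁ * x₂ + a₄) * (x₁ + x₂) + b₂ * x₁ * x₂) / v (x₁ - x₂) ^ 2 := by
    rw [map_div₀, map_pow]
  have h1 : 1 ≤ v ((x₁ * x₂ - a₄) ^ 2 / (x₁ - x₂) ^ 2) := by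
    rw [hT, one_le_div₀ hδ2]
    exact pow_le_pow_left' hm 2
  have h2 : v ((2 * (x₁ * x₂ + a₄) * (x₁ + x₂) + b₂ * x₁ * x₂) / (x₁ - x₂) ^ 2)
      ≤ v ((x₁ * x₂ - a₄) ^ 2 / (x₁ - x₂) ^ 2) := by
    rw [hS, hT, div_le_div_iff_of_pos_right hδ2]
    exact hn
  exact ⟨Fermat.Agent.S05.URD.one_le_left v H.hsum H.hprod h1 h2,
    Fermat.Agent.S05.URD.one_le_left v ((add_comm r₂ r₁).trans H.hsum)
      ((mul_comm r₂ r₁).trans H.hprod) h1 h2⟩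

end URD4

theorem ur_D4 (H : URHyp2 v b₂ a₄ x₁ x₂ r₁ r₂) (heq : v x₁ = v x₂) (h1 : v x₁ ≤ v a₄) :
    URConcl (v a₄) (v x₁) (v x₂) (v r₁) (v r₂) := by
  have h2 : v x₂ ≤ v a₄ := heq.symm.le.trans h1
  have hε0 : v a₄ ≠ 0 := eps_ne_zero H
  have h12 : v (x₁ * x₂) ≤ v a₄ * v a₄ := by
    rw [map_mul]
    exact mul_le_mul' h1 h2
  have hεε : v a₄ * v a₄ < v a₄ := Fermat.Agent.S05.URD.mul_self_lt hε0 H.ha₄
  have hlt : v (x₁ * x₂) < v a₄ := h12.trans_lt hεε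
  have hm : v (x₁ * x₂ - a₄) = v a₄ := Valuation.map_sub_eq_of_lt_right v hlt
  have hδ : v (x₁ - x₂) ≤ v a₄ := Valuation.map_sub_le v h1 h2
  have hσ : v (x₁ + x₂) ≤ v a₄ := Valuation.map_add_le v h1 h2
  have hc : v (x₁ * x₂ + a₄) ≤ v a₄ := Valuation.map_add_le v hlt.le le_rfl
  have hm' : v (x₁ - x₂) ≤ v (x₁ * x₂ - a₄) := by
    rw [hm]
    exact hδ
  have hn : v (2 * (x₁ * x₂ + a₄) * (x₁ + x₂) + b₂ * x₁ * x₂) ≤ v (x₁ * x₂ - a₄) ^ 2 := by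
    rw [hm, sq]
    exact val_num_le H (mul_le_mul' hc hσ) (mul_le_mul' h1 h2)
  have hboth := URD4.one_le_both H hm' hn
  exact Fermat.Agent.S05.URD.concl_eps hε0 H.ha₄ h1 h2 hboth.1 hboth.2

end Fermat.Agent.S13.TwoAdic.XCoreH
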