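import Fermat.Agent.S13.TwoAdic.XCoreH.Basic
import Fermat.Agent.S13.TwoAdic.XCoreH.URA
import Fermat.Agent.S13.TwoAdic.XCoreH.URB
import Fermat.Agent.S13.TwoAdic.XCoreH.URC
import Fermat.Agent.S13.TwoAdic.XCoreH.URD
import Fermat.Agent.S13.TwoAdic.XCoreH.URD4
import Fermat.Agent.S13.TwoAdic.XCoreH.URD3

/-!
# XCoreH: the field-level unordered rule `ur_field2` (assembly of the case files; owner helper8)

Same statement as `Fermat.Agent.S13.TwoAdic.ur_field2` (`Iface/XCore.lean`).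
-/

set_option autoImplicit false

namespace Fermat.Agent.S13.TwoAdic.XCoreH

open Fermat.Agent.S05 (fold qt clip URConcl)

variable {K : Type*} [Field K] {Γ₀ : Type*} [LinearOrderedCommGroupWithZero Γ₀]

theorem ur_field2_lt {v : Valuation K Γ₀} {b₂ a₄ x₁ x₂ r₁ r₂ : K}
    (H : URHyp2 v b₂ a₄ x₁ x₂ r₁ r₂) (hlt : v x₂ < v x₁) :
    URConcl (v a₄) (v x₁) (v x₂) (v r₁) (v r₂) := by
  rcases lt_trichotomy (v a₄) (v x₁ * v x₂) with hA | hC | hB
  · rcases lt_trichotomy (v x₁) 1 with h1 | h1 | h1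
    · exact ur_A1 H hlt hA h1
    · exact ur_A2 H hlt hA h1
    · exact ur_A3 H hlt hA h1
  · rcases lt_or_ge (v x₁) 1 with h1 | h1
    · exact ur_C1 H hlt hC.symm h1
    · exact ur_C2 H hlt hC.symm h1
  · rcases lt_trichotomy (v x₂) (v a₄) with h1 | h1 | h1
    · exact ur_B1 H hlt hB h1
    · exact ur_B2 H hlt hB h1
    · exact ur_B3 H hlt hB h1

theorem ur_field2_eq {v : Valuation K Γ₀} {b₂ a₄ x₁ x₂ r₁ r₂ : K}
    (H : URHyp2 v b₂ a₄ x₁ x₂ r₁ r₂) (heq : v x₁ = v x₂) :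
    URConcl (v a₄) (v x₁) (v x₂) (v r₁) (v r₂) := by
  rcases lt_trichotomy (v x₁) 1 with h1 | h1 | h1
  · rcases le_or_gt (v x₁) (v a₄) with h4 | hε
    · exact ur_D4 H heq h4
    · rcases lt_trichotomy (v a₄) (v x₁ ^ 2) with h3 | h3 | h3
      · exact ur_D3a H heq h1 hε h3
      · exact ur_D3c H heq h1 hε h3.symm
      · exact ur_D3b H heq h1 hε h3
  · exact ur_D2 H heq h1
  · exact ur_D1 H heq h1

/-- Field-level unordered rule (hedge version of `Fermat.Agent.S13.TwoAdic.ur_field2`). -/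
theorem ur_field2 {v : Valuation K Γ₀} {b₂ a₄ x₁ x₂ r₁ r₂ : K}
    (H : URHyp2 v b₂ a₄ x₁ x₂ r₁ r₂) : URConcl (v a₄) (v x₁) (v x₂) (v r₁) (v r₂) := by
  rcases lt_trichotomy (v x₂) (v x₁) with hlt | heq | hgt
  · exact ur_field2_lt H hlt
  · exact ur_field2_eq H heq.symm
  · exact urConcl_swap (ur_field2_lt (urHyp2_swap H) hgt)

end Fermat.Agent.S13.TwoAdic.XCoreH
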