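import Fermat.Agent.S13.TwoAdic.XCoreH.Basic
import Fermat.Agent.S13.TwoAdic.XCoreH.URField
import Fermat.Agent.S13.TwoAdic.XCoreH.Dbl
import Fermat.Agent.S05.Core.URAll
import Fermat.Agent.S05.Core.Iter

/-!
# XCoreH: the unordered parallelogram rule for the level function of an `XModel`, and levels of
torsion points
(FROZEN statements `lvl_two`, `ur`; one worker; replace each `sorry`.  `lvl_pow_of_torsion` is
already derived from `ur` and `Fermat.Agent.S05.iter`.)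

Template: `Fermat/Agent/S05/Core/URAll.lean` (`URAll.lvl_two`, `Model.ur`; its pure lemmas
`URAll.qt_comm`, `qt_self`, `qt_one_left`, `qt_one_right`, `fold_of_le`, `fold_one_mul_one`,
`fold_self_mul_self` can be used as they are).

* `lvl_two`: `P = 0`: `fold ε (1 * 1) = 1`.  Otherwise `xc P = some x`, `D := 4x³ + b₂x² + 4a₄x`.
  `D ≠ 0`: `M.two` + `dbl_field2`.  `D = 0`: `P + P = 0`, level `1`; and `x = 0` (level `ε`,
  `fold ε (ε * ε) = 1`) or `4x² + b₂x + 4a₄ = 0`, which forces `1 ≤ v x` or `v x ≤ ε`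
  (if `ε < v x < 1` the term `b₂ x` strictly dominates: `v (4x²) ≤ (v x)² < v x`,
  `v (4a₄) ≤ ε < v x`), so the level is `1` or `ε` and `fold ε (s * s) = 1` in both cases.
* `ur`: `P = 0` or `Q = 0` (`fold ε t = t`, `qt 1 t = t`, `lvl (-Q) = lvl Q`); `x₁ ≠ x₂`: `M.add_sub`
  + `ur_field2`; `x₁ = x₂`: `Q = P` or `Q = -P` (`M.eq_or_eq_neg`), `{P + Q, P - Q} = {P + P, 0}`,
  `lvl 0 = 1 = qt s s`, `lvl (P + P) = fold ε (s * s)` by `lvl_two`.
-/

set_option autoImplicit false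

namespace Fermat.Agent.S13.TwoAdic.XCoreH

open Fermat.Agent.S05 (fold qt clip URConcl)

variable {K : Type*} [Field K] {Γ₀ : Type*} [LinearOrderedCommGroupWithZero Γ₀]
variable {b₂ a₄ : K} {G : Type*} [AddCommGroup G] (M : XModel K b₂ a₄ G) (v : Valuation K Γ₀)

theorem lvl_neg (P : G) : M.lvl v (-P) = M.lvl v P := by
  unfold XModel.lvl
  rw [M.xc_neg]

theorem le_lvl (ha₄ : v a₄ < 1) (P : G) : v a₄ ≤ M.lvl v P := by
  by_cases h : P = 0
  · rw [h, M.lvl_zero]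
    exact ha₄.le
  · obtain ⟨x, hc⟩ := M.exists_xc_of_ne_zero h
    rw [M.lvl_of_xc v hc]
    exact le_max_left _ _

theorem lvl_le_one (ha₄ : v a₄ < 1) (P : G) : M.lvl v P ≤ 1 := by
  by_cases h : P = 0
  · rw [h, M.lvl_zero]
  · obtain ⟨x, hc⟩ := M.exists_xc_of_ne_zero h
    rw [M.lvl_of_xc v hc]
    exact max_le ha₄.le (min_le_left _ _)

theorem lvl_ne_zero (ha₄0 : a₄ ≠ 0) (ha₄ : v a₄ < 1) (P : G) : M.lvl v P ≠ 0 := by
  have h0 : 0 < v a₄ := zero_lt_iff.mpr (v.ne_zero_iff.mpr ha₄0)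
  exact (lt_of_lt_of_le h0 (le_lvl M v ha₄ P)).ne'

namespace URAux

/-- If `4x³ + b₂x² + 4a₄x = 0` then the level of a point with `x`-coordinate `x` is `v a₄` or
`1`. -/
theorem lvl_of_den_eq_zero (v : Valuation K Γ₀) {b₂ a₄ x : K} (hb₂ : v b₂ = 1) (ha₄ : v a₄ < 1)
    (hD : 4 * x ^ 3 + b₂ * x ^ 2 + 4 * a₄ * x = 0) :
    max (v a₄) (min 1 (v x)) = v a₄ ∨ max (v a₄) (min 1 (v x)) = 1 := by
  rcases le_or_gt (v x) (v a₄) with h1 | h1
  · left
    rw [min_eq_right (h1.trans ha₄.le)]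
    exact max_eq_left h1
  rcases le_or_gt 1 (v x) with h2 | h2
  · right
    rw [min_eq_left h2]
    exact max_eq_right ha₄.le
  exfalso
  have hx0 : 0 < v x := lt_of_le_of_lt zero_le h1
  have hxne : x ≠ 0 := v.pos_iff.mp hx0
  have hfac : x * (4 * x ^ 2 + b₂ * x + 4 * a₄) = 0 := by
    rw [← hD]
    ring
  have hq : 4 * x ^ 2 + b₂ * x + 4 * a₄ = 0 := by
    rcases mul_eq_zero.mp hfac with h | h
    · exact absurd h hxne
    · exact h
  have hA : v (4 * x ^ 2) < v (b₂ * x) := by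
    rw [map_mul, map_mul, map_pow, hb₂, one_mul]
    have h3 : v x ^ 2 < v x := by
      rw [sq]
      exact mul_lt_of_lt_one_right hx0 h2
    exact lt_of_le_of_lt (mul_le_of_le_one_left' (val_four_le_one v)) h3
  have hC : v (4 * a₄) < v (b₂ * x) := by
    rw [map_mul, map_mul, hb₂, one_mul]
    exact lt_of_le_of_lt (mul_le_of_le_one_left' (val_four_le_one v)) h1
  have hAB : v (4 * x ^ 2 + b₂ * x) = v (b₂ * x) := Valuation.map_add_eq_of_lt_right v hA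
  have hABC : v (4 * x ^ 2 + b₂ * x + 4 * a₄) = v (b₂ * x) := by
    rw [Valuation.map_add_eq_of_lt_left v (by rw [hAB]; exact hC), hAB]
  rw [hq, map_zero, map_mul, hb₂, one_mul] at hABC
  exact hx0.ne hABC

end URAux

/-- The duplication rule for the level function. -/
theorem lvl_two (hb₂ : v b₂ = 1) (ha₄0 : a₄ ≠ 0) (ha₄ : v a₄ < 1) (P : G) :
    M.lvl v (P + P) = fold (v a₄) (M.lvl v P * M.lvl v P) := by
  by_cases hP : P = 0
  · rw [hP, add_zero, M.lvl_zero]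
    exact (Fermat.Agent.S05.URAll.fold_one_mul_one ha₄.le).symm
  obtain ⟨x, hc⟩ := M.exists_xc_of_ne_zero hP
  by_cases hD : 4 * x ^ 3 + b₂ * x ^ 2 + 4 * a₄ * x = 0
  · rw [(M.two hc).1 hD, M.lvl_zero, M.lvl_of_xc v hc]
    rcases URAux.lvl_of_den_eq_zero v hb₂ ha₄ hD with h | h
    · rw [h]
      exact (Fermat.Agent.S05.URAll.fold_self_mul_self (v.ne_zero_iff.mpr ha₄0) ha₄).symm
    · rw [h]
      exact (Fermat.Agent.S05.URAll.fold_one_mul_one ha₄.le).symm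
  · rw [M.lvl_of_xc v ((M.two hc).2 hD), M.lvl_of_xc v hc]
    exact dbl_field2 v hb₂ ha₄0 ha₄ hD

/-- The unordered parallelogram rule for the level function (hedge version of
`Fermat.Agent.S13.TwoAdic.XModel.ur`). -/
theorem ur (hb₂ : v b₂ = 1) (ha₄0 : a₄ ≠ 0) (ha₄ : v a₄ < 1) (P Q : G) :
    (M.lvl v (P + Q) = fold (v a₄) (M.lvl v P * M.lvl v Q) ∧
        M.lvl v (P - Q) = qt (M.lvl v P) (M.lvl v Q)) ∨
      (M.lvl v (P + Q) = qt (M.lvl v P) (M.lvl v Q) ∧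
        M.lvl v (P - Q) = fold (v a₄) (M.lvl v P * M.lvl v Q)) := by
  by_cases hP : P = 0
  · -- `P = 0`
    left
    rw [hP, zero_add, zero_sub, lvl_neg, M.lvl_zero, one_mul,
      Fermat.Agent.S05.URAll.fold_of_le (le_lvl M v ha₄ Q),
      Fermat.Agent.S05.URAll.qt_one_left (lvl_ne_zero M v ha₄0 ha₄ Q) (lvl_le_one M v ha₄ Q)]
    exact ⟨rfl, rfl⟩
  by_cases hQ : Q = 0
  · -- `Q = 0`
    left
    rw [hQ, add_zero, sub_zero, M.lvl_zero, mul_one,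
      Fermat.Agent.S05.URAll.fold_of_le (le_lvl M v ha₄ P),
      Fermat.Agent.S05.URAll.qt_one_right (lvl_ne_zero M v ha₄0 ha₄ P) (lvl_le_one M v ha₄ P)]
    exact ⟨rfl, rfl⟩
  obtain ⟨x₁, hc₁⟩ := M.exists_xc_of_ne_zero hP
  obtain ⟨x₂, hc₂⟩ := M.exists_xc_of_ne_zero hQ
  by_cases hne : x₁ = x₂
  · -- same `x`-coordinate: `Q = P` or `Q = -P`
    rw [← hne] at hc₂
    rcases M.eq_or_eq_neg hc₁ hc₂ with h | h
    · left
      rw [h, sub_self, M.lvl_zero,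
        Fermat.Agent.S05.URAll.qt_self (lvl_ne_zero M v ha₄0 ha₄ P)]
      exact ⟨lvl_two M v hb₂ ha₄0 ha₄ P, rfl⟩
    · right
      rw [h, add_neg_cancel, sub_neg_eq_add, lvl_neg, M.lvl_zero,
        Fermat.Agent.S05.URAll.qt_self (lvl_ne_zero M v ha₄0 ha₄ P)]
      exact ⟨rfl, lvl_two M v hb₂ ha₄0 ha₄ P⟩
  · -- different `x`-coordinates: the field-level rule
    obtain ⟨r₁, r₂, hp, hm, hsum, hprod⟩ := M.add_sub hc₁ hc₂ hne
    have H : URHyp2 v b₂ a₄ x₁ x₂ r₁ r₂ := ⟨hb₂, ha₄0, ha₄, hne, hsum, hprod⟩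
    have hur := ur_field2 H
    rw [M.lvl_of_xc v hp, M.lvl_of_xc v hm, M.lvl_of_xc v hc₁, M.lvl_of_xc v hc₂]
    exact hur

/-- Levels of torsion points (hedge version of
`Fermat.Agent.S13.TwoAdic.XModel.lvl_pow_of_torsion`). -/
theorem lvl_pow_of_torsion (hb₂ : v b₂ = 1) (ha₄0 : a₄ ≠ 0) (ha₄ : v a₄ < 1) (P : G) (n : ℕ)
    (hn : n • P = 0) : ∃ k : ℤ, M.lvl v P ^ n = v a₄ ^ (2 * k) := by
  have hε0 : 0 < v a₄ := zero_lt_iff.mpr (v.ne_zero_iff.mpr ha₄0)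
  exact Fermat.Agent.S05.iter (v a₄) hε0 ha₄ (M.lvl v) (M.lvl_zero v)
    (fun R => ⟨le_lvl M v ha₄ R, lvl_le_one M v ha₄ R⟩) (ur M v hb₂ ha₄0 ha₄) P n hn

end Fermat.Agent.S13.TwoAdic.XCoreH
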