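import Fermat.Agent.S13.TwoAdic.XCoreH.URField
import Fermat.Agent.S13.TwoAdic.XCoreH.Dbl
import Fermat.Agent.S13.TwoAdic.XCoreH.G1
import Fermat.Agent.S13.TwoAdic.XCoreH.NoTorsion
import Fermat.Agent.S13.TwoAdic.XCoreH.UR
import Fermat.Agent.S13.Iface.XCore

/-!
# XCoreH (hedge of `Iface/XCore.lean`, owner helper8): the 8 statements, checked against the
interface statements.

`ur_field2`, `dbl_field2`, `G1_neg`, `G1_add`, `G1_sub`, `G1_torsion_free`, `ur`,
`lvl_pow_of_torsion` of this namespace have the SAME statements as the corresponding theorems of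
`Fermat.Agent.S13.TwoAdic` (`Iface/XCore.lean`); the `example`s below are the machine check.
To wire a hedge proof into the interface: `exact XCoreH.<name> …` with the same arguments.
-/

set_option autoImplicit false

namespace Fermat.Agent.S13.TwoAdic.XCoreH

example : @ur_field2 = @Fermat.Agent.S13.TwoAdic.ur_field2 := rfl
example : @dbl_field2 = @Fermat.Agent.S13.TwoAdic.dbl_field2 := rfl
example : @G1_neg = @Fermat.Agent.S13.TwoAdic.XModel.G1_neg := rfl
example : @G1_add = @Fermat.Agent.S13.TwoAdic.XModel.G1_add := rfl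
example : @G1_sub = @Fermat.Agent.S13.TwoAdic.XModel.G1_sub := rfl
example : @G1_torsion_free = @Fermat.Agent.S13.TwoAdic.XModel.G1_torsion_free := rfl
example : @ur = @Fermat.Agent.S13.TwoAdic.XModel.ur := rfl
example : @lvl_pow_of_torsion = @Fermat.Agent.S13.TwoAdic.XModel.lvl_pow_of_torsion := rfl

end Fermat.Agent.S13.TwoAdic.XCoreH
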