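import Mathlib
import Fermat.Agent.S13.TwoAdic.XDefs
import Fermat.Agent.S05.Core.Newton

/-!
# S13 / TwoAdic / XCoreH (hedge of `Iface/XCore.lean`, owner helper8): basic valuation facts

Setting (`URHyp2`): `v b₂ = 1`, `a₄ ≠ 0`, `ε := v a₄ < 1`, `x₁ ≠ x₂`, `r₁ + r₂ = S`, `r₁ r₂ = Π` with
`S = (2 (x₁ x₂ + a₄) (x₁ + x₂) + b₂ x₁ x₂) / (x₁ - x₂)²`, `Π = (x₁ x₂ - a₄)² / (x₁ - x₂)²`.
NO hypothesis on `v 2` (only `v 2 ≤ 1`, automatic).  The numerator of `S` is `T1 + T2` with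
`T1 = 2 (x₁ x₂ + a₄) (x₁ + x₂)` (only an upper bound for its valuation is available) and
`T2 = b₂ x₁ x₂` (valuation exactly `v x₁ * v x₂`).

All lemmas of this file are PROVED; the case files `URA … URD3` use them together with
`Fermat.Agent.S05.newton_two_roots` and the pure `Γ₀`-lemmas of `Fermat/Agent/S05/Core/UR*.lean`.
-/

set_option autoImplicit false

namespace Fermat.Agent.S13.TwoAdic.XCoreH

open Fermat.Agent.S05 (fold qt clip URConcl)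

variable {K : Type*} [Field K] {Γ₀ : Type*} [LinearOrderedCommGroupWithZero Γ₀]

theorem val_two_le_one (v : Valuation K Γ₀) : v (2 : K) ≤ 1 := by
  have h : (2 : K) = 1 + 1 := by norm_num
  rw [h]
  exact (v.map_add 1 1).trans (by rw [v.map_one, max_self])

theorem val_four_le_one (v : Valuation K Γ₀) : v (4 : K) ≤ 1 := by
  have h : (4 : K) = 2 * 2 := by norm_num
  rw [h, map_mul]
  exact mul_le_one' (val_two_le_one v) (val_two_le_one v)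

variable {v : Valuation K Γ₀} {b₂ a₄ x₁ x₂ r₁ r₂ : K}

theorem eps_pos (H : URHyp2 v b₂ a₄ x₁ x₂ r₁ r₂) : 0 < v a₄ := v.pos_iff.mpr H.ha₄0

theorem eps_ne_zero (H : URHyp2 v b₂ a₄ x₁ x₂ r₁ r₂) : v a₄ ≠ 0 := (eps_pos H).ne'

/-- The second term of the numerator of `S` has valuation exactly `v x₁ * v x₂`. -/
theorem val_T2 (H : URHyp2 v b₂ a₄ x₁ x₂ r₁ r₂) : v (b₂ * x₁ * x₂) = v x₁ * v x₂ := by
  rw [map_mul, map_mul, H.hb₂, one_mul]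

/-- Upper bound for the first term of the numerator of `S`. -/
theorem val_T1_le (v : Valuation K Γ₀) (a₄ x₁ x₂ : K) :
    v (2 * (x₁ * x₂ + a₄) * (x₁ + x₂)) ≤ v (x₁ * x₂ + a₄) * v (x₁ + x₂) := by
  rw [map_mul, map_mul]
  exact mul_le_mul' (mul_le_of_le_one_left' (val_two_le_one v)) le_rfl

/-- If the bound for the first term is strictly smaller than `v x₁ * v x₂`, the numerator of `S`
has valuation exactly `v x₁ * v x₂`. -/
theorem val_num_eq (H : URHyp2 v b₂ a₄ x₁ x₂ r₁ r₂)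
    (h : v (x₁ * x₂ + a₄) * v (x₁ + x₂) < v x₁ * v x₂) :
    v (2 * (x₁ * x₂ + a₄) * (x₁ + x₂) + b₂ * x₁ * x₂) = v x₁ * v x₂ := by
  have h1 : v (2 * (x₁ * x₂ + a₄) * (x₁ + x₂)) < v (b₂ * x₁ * x₂) := by
    rw [val_T2 H]
    exact lt_of_le_of_lt (val_T1_le v a₄ x₁ x₂) h
  rw [Valuation.map_add_eq_of_lt_right v h1, val_T2 H]

/-- Upper bound for the numerator of `S`. -/
theorem val_num_le (H : URHyp2 v b₂ a₄ x₁ x₂ r₁ r₂) {c : Γ₀}
    (h1 : v (x₁ * x₂ + a₄) * v (x₁ + x₂) ≤ c) (h2 : v x₁ * v x₂ ≤ c) :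
    v (2 * (x₁ * x₂ + a₄) * (x₁ + x₂) + b₂ * x₁ * x₂) ≤ c := by
  apply Valuation.map_add_le
  · exact (val_T1_le v a₄ x₁ x₂).trans h1
  · rw [val_T2 H]
    exact h2

/-- The valuation of `S` in terms of the numerator. -/
theorem val_S (H : URHyp2 v b₂ a₄ x₁ x₂ r₁ r₂) :
    v (r₁ + r₂) = v (2 * (x₁ * x₂ + a₄) * (x₁ + x₂) + b₂ * x₁ * x₂) / v (x₁ - x₂) ^ 2 := by
  rw [H.hsum, map_div₀, map_pow]

/-- The valuation of `Π`. -/
theorem val_Pi (H : URHyp2 v b₂ a₄ x₁ x₂ r₁ r₂) :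
    v (r₁ * r₂) = v (x₁ * x₂ - a₄) ^ 2 / v (x₁ - x₂) ^ 2 := by
  rw [H.hprod, map_div₀, map_pow, map_pow]

theorem val_sub_pos (H : URHyp2 v b₂ a₄ x₁ x₂ r₁ r₂) : 0 < v (x₁ - x₂) :=
  v.pos_iff.mpr (sub_ne_zero.mpr H.hne)

/-- Symmetry of the hypotheses in `x₁ ↔ x₂`. -/
theorem urHyp2_swap (H : URHyp2 v b₂ a₄ x₁ x₂ r₁ r₂) : URHyp2 v b₂ a₄ x₂ x₁ r₁ r₂ where
  hb₂ := H.hb₂
  ha₄0 := H.ha₄0
  ha₄ := H.ha₄
  hne := H.hne.symm
  hsum := by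
    have e1 : (x₂ - x₁) ^ 2 = (x₁ - x₂) ^ 2 := by ring
    have e2 : 2 * (x₂ * x₁ + a₄) * (x₂ + x₁) + b₂ * x₂ * x₁
        = 2 * (x₁ * x₂ + a₄) * (x₁ + x₂) + b₂ * x₁ * x₂ := by ring
    rw [e1, e2]
    exact H.hsum
  hprod := by
    have e1 : (x₂ - x₁) ^ 2 = (x₁ - x₂) ^ 2 := by ring
    rw [e1, mul_comm x₂ x₁]
    exact H.hprod

/-- Symmetry of the conclusion in `a ↔ b`. -/
theorem urConcl_swap {ε a b c₁ c₂ : Γ₀} (h : URConcl ε b a c₁ c₂) : URConcl ε a b c₁ c₂ := by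
  unfold URConcl at h ⊢
  have hq : qt (clip ε a) (clip ε b) = qt (clip ε b) (clip ε a) := by
    unfold qt
    exact min_comm _ _
  rw [mul_comm (clip ε a) (clip ε b), hq]
  exact h

end Fermat.Agent.S13.TwoAdic.XCoreH
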